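import Mathlib
import Fermat.Agent.S22.Cusp

/-!
# S21: the normalized primitive of a weight `2` cusp form on `Γ₀(N)`

`primN f` is the primitive of `f` on the upper half plane vanishing at `i∞`;
`cuspv f g` is its value at the cusp `g∞`.
-/

set_option autoImplicit false

open Complex Filter Topology Set UpperHalfPlane
open scoped MatrixGroups

namespace Fermat.Agent.S21

open Fermat.Agent.S22

variable {N : ℕ} [NeZero N]

theorem good_toC (f : CuspForm (CongruenceSubgroup.Gamma0 N) 2) : Good (toC f) := by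
  refine ⟨differentiableOn_toC f, fun g => ?_⟩
  refine (stripDecay_toC_mob f g).congr (fun z hz => ?_)
  simp only [pull, div_eq_mul_inv]
  congr 1

theorem exists_normPrim (f : CuspForm (CongruenceSubgroup.Gamma0 N) 2) :
    ∃ F : ℂ → ℂ, IsPrim F (toC f) ∧ CuspVal F 1 0 := by
  obtain ⟨F₀, hF₀⟩ := exists_isPrim (good_toC f).1
  obtain ⟨L, hL⟩ := (good_toC f).exists_cuspVal hF₀ 1
  exact ⟨fun z => F₀ z - L, hF₀.sub_const L, by simpa using hL.sub_const L⟩

/-- The normalized primitive of `f` (vanishing at `i∞`). -/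
noncomputable def primN (f : CuspForm (CongruenceSubgroup.Gamma0 N) 2) : ℂ → ℂ :=
  (exists_normPrim f).choose

theorem isPrim_primN (f : CuspForm (CongruenceSubgroup.Gamma0 N) 2) : IsPrim (primN f) (toC f) :=
  (exists_normPrim f).choose_spec.1

theorem cuspVal_primN_one (f : CuspForm (CongruenceSubgroup.Gamma0 N) 2) :
    CuspVal (primN f) 1 0 :=
  (exists_normPrim f).choose_spec.2

theorem exists_cuspVal_primN (f : CuspForm (CongruenceSubgroup.Gamma0 N) 2) (g : SL(2, ℤ)) :
    ∃ L, CuspVal (primN f) g L :=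
  (good_toC f).exists_cuspVal (isPrim_primN f) g

/-- The value of the normalized primitive at the cusp `g∞`. -/
noncomputable def cuspv (f : CuspForm (CongruenceSubgroup.Gamma0 N) 2) (g : SL(2, ℤ)) : ℂ :=
  (exists_cuspVal_primN f g).choose

theorem cuspVal_primN (f : CuspForm (CongruenceSubgroup.Gamma0 N) 2) (g : SL(2, ℤ)) :
    CuspVal (primN f) g (cuspv f g) :=
  (exists_cuspVal_primN f g).choose_spec

theorem cuspv_one (f : CuspForm (CongruenceSubgroup.Gamma0 N) 2) : cuspv f 1 = 0 :=
  (cuspVal_primN f 1).unique (cuspVal_primN_one f)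

theorem stripDecay_primN (f : CuspForm (CongruenceSubgroup.Gamma0 N) 2) : StripDecay (primN f) :=
  StripDecay.congr (cuspVal_primN_one f) (fun z hz => by rw [mob_one hz, sub_zero])

/-- Uniqueness of the normalized primitive. -/
theorem primN_eq_of {f : CuspForm (CongruenceSubgroup.Gamma0 N) 2} {F : ℂ → ℂ}
    (hF : IsPrim F (toC f)) (h0 : StripDecay F) {z : ℂ} (hz : 0 < z.im) : F z = primN f z := by
  obtain ⟨c, hc⟩ := hF.unique (isPrim_primN f)
  have h1 : StripDecay (fun _ : ℂ => c) := by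
    refine (h0.sub (stripDecay_primN f)).congr (fun w hw => ?_)
    rw [hc w hw]
    ring
  rw [hc z hz, h1.const_eq_zero, add_zero]

theorem primN_add (f₁ f₂ : CuspForm (CongruenceSubgroup.Gamma0 N) 2) {z : ℂ} (hz : 0 < z.im) :
    primN (f₁ + f₂) z = primN f₁ z + primN f₂ z := by
  have h1 : IsPrim (fun z => primN f₁ z + primN f₂ z) (toC (f₁ + f₂)) :=
    ((isPrim_primN f₁).add (isPrim_primN f₂)).congr (fun w _ => (toC_add f₁ f₂ w).symm)
  exact (primN_eq_of h1 ((stripDecay_primN f₁).add (stripDecay_primN f₂)) hz).symm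

theorem primN_smul (a : ℂ) (f : CuspForm (CongruenceSubgroup.Gamma0 N) 2) {z : ℂ}
    (hz : 0 < z.im) : primN (a • f) z = a * primN f z := by
  have h1 : IsPrim (fun z => a * primN f z) (toC (a • f)) :=
    ((isPrim_primN f).const_mul a).congr (fun w _ => (toC_smul a f w).symm)
  exact (primN_eq_of h1 ((stripDecay_primN f).const_mul a) hz).symm

theorem cuspv_add (f₁ f₂ : CuspForm (CongruenceSubgroup.Gamma0 N) 2) (g : SL(2, ℤ)) :
    cuspv (f₁ + f₂) g = cuspv f₁ g + cuspv f₂ g := by
  have h1 : CuspVal (primN (f₁ + f₂)) g (cuspv f₁ g + cuspv f₂ g) :=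
    ((cuspVal_primN f₁ g).add (cuspVal_primN f₂ g)).congr (fun z hz => (primN_add f₁ f₂ hz).symm)
  exact (cuspVal_primN (f₁ + f₂) g).unique h1

theorem cuspv_smul (a : ℂ) (f : CuspForm (CongruenceSubgroup.Gamma0 N) 2) (g : SL(2, ℤ)) :
    cuspv (a • f) g = a * cuspv f g := by
  have h1 : CuspVal (primN (a • f)) g (a * cuspv f g) :=
    ((cuspVal_primN f g).const_mul a).congr (fun z hz => (primN_smul a f hz).symm)
  exact (cuspVal_primN (a • f) g).unique h1

/-- Equivariance of the normalized primitive. -/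
theorem primN_mob_of_mem (f : CuspForm (CongruenceSubgroup.Gamma0 N) 2) {γ : SL(2, ℤ)}
    (hγ : γ ∈ CongruenceSubgroup.Gamma0 N) {z : ℂ} (hz : 0 < z.im) :
    primN f (mob γ z) = primN f z + cuspv f γ := by
  have h1 : IsPrim (fun z => primN f (mob γ z)) (toC f) := by
    refine ((isPrim_primN f).comp_mob γ).congr (fun w hw => ?_)
    rw [pull, toC_mob_of_mem f hγ hw]
    have := den_ne_zero γ hw
    have h2 : den γ w ^ (2 : ℤ) = den γ w ^ 2 := by norm_cast
    rw [h2]
    field_simp
  obtain ⟨c, hc⟩ := h1.unique (isPrim_primN f)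
  have h3 : StripDecay (fun _ : ℂ => c - cuspv f γ) := by
    have := (cuspVal_primN f γ).sub (stripDecay_primN f)
    refine this.congr (fun w hw => ?_)
    rw [hc w hw]
    ring
  have h4 := sub_eq_zero.mp h3.const_eq_zero
  rw [hc z hz, h4]

end Fermat.Agent.S21
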