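import Mathlib
import Fermat.Agent.S21.Prim

/-!
# S21: periodicity at the cusps and uniform decay
-/

set_option autoImplicit false

open Complex Filter Topology Set UpperHalfPlane
open scoped MatrixGroups

namespace Fermat.Agent.S21

open Fermat.Agent.S22

theorem mob_T_zpow (n : ℤ) {z : ℂ} (hz : 0 < z.im) : mob (ModularGroup.T ^ n) z = z + n := by
  rw [mob, ofComplex_apply_of_im_pos hz, ModularGroup.coe_T_zpow_smul_eq]

theorem conj_T_zpow_mem (N : ℕ) (δ : SL(2, ℤ)) (k : ℤ) :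
    δ * ModularGroup.T ^ ((N : ℤ) * k) * δ⁻¹ ∈ CongruenceSubgroup.Gamma0 N := by
  have h1 : ModularGroup.T ^ ((N : ℤ) * k) ∈ CongruenceSubgroup.Gamma N :=
    CongruenceSubgroup.ModularGroup_T_pow_mem_Gamma N _ (dvd_mul_right _ _)
  have h2 := (CongruenceSubgroup.Gamma_normal N).conj_mem _ h1 δ
  have h3 : CongruenceSubgroup.Gamma N ≤ CongruenceSubgroup.Gamma0 N := by
    intro g hg
    rw [CongruenceSubgroup.Gamma_mem] at hg
    rw [CongruenceSubgroup.Gamma0_mem]
    exact hg.2.2.1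
  exact h3 h2

variable {N : ℕ} [NeZero N]

/-- Parabolic elements `δ T^m δ⁻¹` of `Γ₀(N)` have zero period. -/
theorem cuspv_conj_T (f : CuspForm (CongruenceSubgroup.Gamma0 N) 2) (δ : SL(2, ℤ)) (m : ℤ)
    (hm : δ * ModularGroup.T ^ m * δ⁻¹ ∈ CongruenceSubgroup.Gamma0 N) :
    cuspv f (δ * ModularGroup.T ^ m * δ⁻¹) = 0 := by
  set γ' := δ * ModularGroup.T ^ m * δ⁻¹ with hγ'
  have key : ∀ z : ℂ, 0 < z.im →
      primN f (mob δ (z + m)) = primN f (mob δ z) + cuspv f γ' := by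
    intro z hz
    rw [← mob_T_zpow m hz, ← mob_mul]
    have h1 : δ * ModularGroup.T ^ m = γ' * δ := by
      rw [hγ']; group
    rw [h1, mob_mul, primN_mob_of_mem f hm (mob_im_pos δ z)]
  have hφ : StripDecay (fun z => primN f (mob δ z) - cuspv f δ) := cuspVal_primN f δ
  have hφ' : StripDecay (fun z => primN f (mob δ (((1 : ℝ) : ℂ) * z + ((m : ℝ) : ℂ))) - cuspv f δ) :=
    hφ.comp_affine one_pos (m : ℝ)
  have h3 : StripDecay (fun _ : ℂ => cuspv f γ') := by
    refine (hφ'.sub hφ).congr (fun z hz => ?_)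
    have e : ((1 : ℝ) : ℂ) * z + ((m : ℝ) : ℂ) = z + m := by push_cast; ring
    rw [e, key z hz]
    ring
  exact h3.const_eq_zero

theorem primN_mob_add (f : CuspForm (CongruenceSubgroup.Gamma0 N) 2) (δ : SL(2, ℤ)) (m : ℤ)
    (hm : δ * ModularGroup.T ^ m * δ⁻¹ ∈ CongruenceSubgroup.Gamma0 N) {z : ℂ} (hz : 0 < z.im) :
    primN f (mob δ (z + m)) = primN f (mob δ z) := by
  rw [← mob_T_zpow m hz, ← mob_mul]
  have h1 : δ * ModularGroup.T ^ m = (δ * ModularGroup.T ^ m * δ⁻¹) * δ := by group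
  rw [h1, mob_mul, primN_mob_of_mem f hm (mob_im_pos δ z), cuspv_conj_T f δ m hm, add_zero]

/-- `primN f ∘ mob δ` is `N`-periodic. -/
theorem primN_mob_add_level (f : CuspForm (CongruenceSubgroup.Gamma0 N) 2) (δ : SL(2, ℤ)) (k : ℤ)
    {z : ℂ} (hz : 0 < z.im) :
    primN f (mob δ (z + (N : ℂ) * k)) = primN f (mob δ z) := by
  have := primN_mob_add f δ ((N : ℤ) * k) (conj_T_zpow_mem N δ k) hz
  push_cast at this
  exact this

/-- A periodic `StripDecay` function decays uniformly. -/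
theorem uniform_decay_of_periodic {h : ℂ → ℂ} (hh : StripDecay h) {M : ℝ} (hM : 0 < M)
    (hper : ∀ (k : ℤ) (z : ℂ), 0 < z.im → h (z + (M : ℂ) * k) = h z) :
    ∃ C c A : ℝ, 0 < c ∧ 0 < A ∧ ∀ z : ℂ, A ≤ z.im → ‖h z‖ ≤ C * Real.exp (-c * z.im) := by
  obtain ⟨C, c, A, hc, hb⟩ := hh M
  refine ⟨C, c, max A 1, hc, by positivity, fun z hz => ?_⟩
  have hz0 : 0 < z.im := lt_of_lt_of_le one_pos ((le_max_right A 1).trans hz)
  set k : ℤ := -⌊z.re / M⌋ with hk
  have h1 := hper k z hz0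
  have hre : |(z + (M : ℂ) * k).re| ≤ M := by
    have e : (z + (M : ℂ) * k).re = z.re - M * ⌊z.re / M⌋ := by
      simp [hk]
      ring
    rw [e]
    have h2 := Int.floor_le (z.re / M)
    have h3 := Int.lt_floor_add_one (z.re / M)
    have h4 : (⌊z.re / M⌋ : ℝ) * M ≤ z.re := by
      have := mul_le_mul_of_nonneg_right h2 hM.le
      rwa [div_mul_cancel₀ _ hM.ne'] at this
    have h5 : z.re < ((⌊z.re / M⌋ : ℝ) + 1) * M := by
      have := mul_lt_mul_of_pos_right h3 hM
      rwa [div_mul_cancel₀ _ hM.ne'] at this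
    rw [abs_le]
    constructor <;> nlinarith
  have him : (z + (M : ℂ) * k).im = z.im := by simp
  have := hb (z + (M : ℂ) * k) hre (by rw [him]; exact (le_max_left A 1).trans hz)
  rw [h1, him] at this
  exact this

theorem tendsto_zero_of_uniform_decay {h : ℂ → ℂ} {C c A : ℝ} (hc : 0 < c)
    (hb : ∀ z : ℂ, A ≤ z.im → ‖h z‖ ≤ C * Real.exp (-c * z.im)) :
    Tendsto (fun w : ℍ => h (w : ℂ)) atImInfty (𝓝 0) := by
  have hlim : Tendsto (fun w : ℍ => C * Real.exp (-c * w.im)) atImInfty (𝓝 0) := by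
    have h1 : Tendsto (fun t : ℝ => -c * t) atTop atBot := by
      have := tendsto_id.const_mul_atTop_of_neg (show -c < 0 by linarith) (f := fun t : ℝ => t)
        (l := atTop)
      simpa using this
    have h2 := Real.tendsto_exp_atBot.comp h1
    have h3 := (h2.const_mul C).comp (tendsto_comap (f := UpperHalfPlane.im) (x := atTop))
    have h4 : Tendsto (fun w : ℍ => C * Real.exp (-c * w.im)) (comap UpperHalfPlane.im atTop)
        (𝓝 0) := by
      simpa [Function.comp_def] using h3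
    exact h4
  refine squeeze_zero_norm' ?_ hlim
  rw [Filter.Eventually, atImInfty_mem]
  exact ⟨A, fun w hw => hb (w : ℂ) hw⟩

/-- Uniform convergence of `primN f ∘ mob δ` to its cusp value. -/
theorem tendsto_primN_mob (f : CuspForm (CongruenceSubgroup.Gamma0 N) 2) (δ : SL(2, ℤ)) :
    Tendsto (fun w : ℍ => primN f (mob δ (w : ℂ))) atImInfty (𝓝 (cuspv f δ)) := by
  have hφ : StripDecay (fun z => primN f (mob δ z) - cuspv f δ) := cuspVal_primN f δ
  have hN : (0 : ℝ) < N := by exact_mod_cast Nat.pos_of_ne_zero (NeZero.ne N)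
  obtain ⟨C, c, A, hc, _, hb⟩ := uniform_decay_of_periodic hφ hN (fun k z hz => by
    have := primN_mob_add_level f δ k hz
    push_cast
    rw [this])
  have := tendsto_zero_of_uniform_decay hc hb
  have h2 := this.add_const (cuspv f δ)
  simpa using h2

end Fermat.Agent.S21
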