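import Mathlib
import Fermat.Agent.S21.Uniform
import Fermat.Prelude.Def_ModularCurve_PeriodHomPair

/-!
# S21: the period map is linear (E1)
-/

set_option autoImplicit false

open Complex Filter Topology Set UpperHalfPlane
open scoped MatrixGroups

namespace Fermat.Agent.S21

open Fermat.Agent.S22 ModularCurve ModularCurve.Period

variable {N : ℕ} [NeZero N]

/-- The normalized primitive as a function on `ℍ`. -/
noncomputable def primH (f : CuspForm (CongruenceSubgroup.Gamma0 N) 2) : ℍ → ℂ :=
  fun τ => primN f (τ : ℂ)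

theorem primH_smul (f : CuspForm (CongruenceSubgroup.Gamma0 N) 2) (g : SL(2, ℤ)) (τ : ℍ) :
    primH f (g • τ) = primN f (mob g (τ : ℂ)) := by
  rw [primH, mob_eq_coe]

theorem hasEquivariantPrimitive_primH (f : CuspForm (CongruenceSubgroup.Gamma0 N) 2) :
    HasEquivariantPrimitive N f (primH f) := by
  refine ⟨fun τ => ?_, ?_, fun γ => ⟨cuspv f γ, fun z => ?_⟩, fun δ => ⟨cuspv f δ, ?_⟩⟩
  · have h1 := isPrim_primN f (τ : ℂ) τ.im_pos
    have h2 : toC f (τ : ℂ) = f τ := by rw [toC, ofComplex_apply]
    rw [h2] at h1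
    refine h1.congr_of_eventuallyEq ?_
    filter_upwards [isOpen_upperHalfPlaneSet.mem_nhds τ.im_pos] with z hz
    simp only [Function.comp_apply, primH]
    rw [ofComplex_apply_of_im_pos hz]
  · have := tendsto_primN_mob f 1
    rw [cuspv_one] at this
    refine this.congr (fun w => ?_)
    rw [mob_one w.im_pos, primH]
  · rw [primH_smul, primN_mob_of_mem f γ.2 z.im_pos, primH]
    ring
  · refine (tendsto_primN_mob f δ).congr (fun w => ?_)
    rw [primH_smul]

theorem primH_unique {f : CuspForm (CongruenceSubgroup.Gamma0 N) 2} {F : ℍ → ℂ}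
    (hF : HasEquivariantPrimitive N f F) : F = primH f := by
  have h1 : IsPrim (F ∘ ofComplex) (toC f) := by
    intro z hz
    have := hF.1 ⟨z, hz⟩
    have h2 : toC f z = f ⟨z, hz⟩ := by rw [toC, ofComplex_apply_of_im_pos hz]
    rw [h2]
    exact this
  obtain ⟨c, hc⟩ := h1.unique (isPrim_primN f)
  have h3 : Tendsto (fun w : ℍ => F w - primH f w) atImInfty (𝓝 (0 - 0)) :=
    hF.2.1.sub (hasEquivariantPrimitive_primH f).2.1
  have h4 : (fun w : ℍ => F w - primH f w) = fun _ => c := by
    funext w
    have := hc (w : ℂ) w.im_pos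
    simp only [Function.comp_apply, ofComplex_apply] at this
    rw [this, primH]
    ring
  rw [h4, sub_zero] at h3
  have h5 : c = 0 := tendsto_nhds_unique tendsto_const_nhds h3
  funext w
  have := congrFun h4 w
  simp only [h5] at this
  exact sub_eq_zero.mp this

theorem periodMap_apply (f : CuspForm (CongruenceSubgroup.Gamma0 N) 2)
    (γ : CongruenceSubgroup.Gamma0 N) :
    periodMap N f (Additive.ofMul γ) = cuspv f γ := by
  obtain ⟨F₀, h₀, hp⟩ := periodMap_def N f (hasEquivariantPrimitive_primH f)
  rw [hp, IsEquivariantPrimitive.periodHom_apply, IsEquivariantPrimitive.period]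
  rw [primH_unique h₀, primH_smul, primN_mob_of_mem f γ.2 UpperHalfPlane.I.im_pos, primH]
  ring

/-- The period map as a linear map. -/
noncomputable def periodLin (N : ℕ) [NeZero N] :
    CuspForm (CongruenceSubgroup.Gamma0 N) 2 →ₗ[ℂ]
      (Additive (CongruenceSubgroup.Gamma0 N) →+ ℂ) where
  toFun f := periodMap N f
  map_add' f₁ f₂ := by
    refine AddMonoidHom.ext fun γ => ?_
    show periodMap N (f₁ + f₂) (Additive.ofMul (Additive.toMul γ)) =
      periodMap N f₁ (Additive.ofMul (Additive.toMul γ))
        + periodMap N f₂ (Additive.ofMul (Additive.toMul γ))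
    rw [periodMap_apply, periodMap_apply, periodMap_apply, cuspv_add]
  map_smul' a f := by
    refine AddMonoidHom.ext fun γ => ?_
    show periodMap N (a • f) (Additive.ofMul (Additive.toMul γ)) =
      a • periodMap N f (Additive.ofMul (Additive.toMul γ))
    rw [periodMap_apply, periodMap_apply, cuspv_smul, smul_eq_mul]

theorem periodLin_apply (f : CuspForm (CongruenceSubgroup.Gamma0 N) 2) :
    periodLin N f = periodMap N f := rfl

theorem existsPeriodMapLinear (N : ℕ) [NeZero N] : ExistsPeriodMapLinear N :=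
  ⟨periodLin N, fun _ => rfl⟩

end Fermat.Agent.S21
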