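import Mathlib
import Fermat.Agent.S21.PeriodMap

/-!
# S21: parabolic elements have zero period (E2)

Every element of `SL(2, ℤ)` of trace `±2` is `± δ T^m δ⁻¹`.
-/

set_option autoImplicit false

open Complex Filter Topology Set UpperHalfPlane
open scoped MatrixGroups

namespace Fermat.Agent.S21

open Fermat.Agent.S22 ModularCurve ModularCurve.Period

/-- A matrix in `SL(2, ℤ)` with first column `e₁` is a power of `T`. -/
theorem eq_T_zpow_of_col (g : SL(2, ℤ)) (h0 : g 0 0 = 1) (h1 : g 1 0 = 0) :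
    g = ModularGroup.T ^ (g 0 1) := by
  have hdet := Matrix.SpecialLinearGroup.det_coe g
  rw [Matrix.det_fin_two] at hdet
  rw [h0, h1] at hdet
  have h11 : g 1 1 = 1 := by linarith
  apply Subtype.ext
  rw [ModularGroup.coe_T_zpow]
  ext i j
  fin_cases i <;> fin_cases j <;> simp [h0, h1, h11]

/-- A trace `2` element of `SL(2, ℤ)` fixes a primitive vector. -/
theorem exists_fixed_vector (γ : SL(2, ℤ)) (htr : γ 0 0 + γ 1 1 = 2) :
    ∃ p r : ℤ, IsCoprime p r ∧ γ 0 0 * p + γ 0 1 * r = p ∧ γ 1 0 * p + γ 1 1 * r = r := by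
  have hdet := Matrix.SpecialLinearGroup.det_coe γ
  rw [Matrix.det_fin_two] at hdet
  set a := γ 0 0 with ha
  set b := γ 0 1 with hb
  set c := γ 1 0 with hc
  set d := γ 1 1 with hd
  have hd' : d = 2 - a := by linarith
  have hbc : b * c = -(a - 1) ^ 2 := by
    rw [hd'] at hdet
    linear_combination -hdet
  by_cases hb0 : b = 0
  · have ha1 : a = 1 := by
      rw [hb0, zero_mul] at hbc
      have : (a - 1) ^ 2 = 0 := by linarith
      have := pow_eq_zero_iff (two_ne_zero) |>.mp this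
      linarith
    refine ⟨0, 1, isCoprime_zero_left.mpr isUnit_one, ?_, ?_⟩
    · rw [hb0]; ring
    · rw [hd', ha1]; ring
  · have hg : 0 < Int.gcd (a - 1) b := Int.gcd_pos_of_ne_zero_right _ hb0
    obtain ⟨u, v, huv, hu, hv⟩ := Int.exists_gcd_one hg
    set g : ℤ := (Int.gcd (a - 1) b : ℤ) with hgdef
    have hg0 : g ≠ 0 := by
      rw [hgdef]
      exact_mod_cast hg.ne'
    refine ⟨v, -u, ?_, ?_, ?_⟩
    · have : IsCoprime u v := Int.isCoprime_iff_gcd_eq_one.mpr huv
      exact this.symm.neg_right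
    · have ha' : a = 1 + u * g := by linarith
      rw [ha', hv]
      ring
    · have ha' : a = 1 + u * g := by linarith
      have h1 : g * (c * v + u ^ 2 * g) = 0 := by
        have : b * c + (a - 1) ^ 2 = 0 := by linarith
        rw [hu, hv] at this
        linear_combination this
      have h2 : c * v + u ^ 2 * g = 0 := (mul_eq_zero.mp h1).resolve_left hg0
      rw [hd', ha']
      linear_combination h2

/-- Every trace `2` element of `SL(2, ℤ)` is conjugate to a power of `T`. -/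
theorem exists_conj_T_of_trace_two (γ : SL(2, ℤ)) (htr : γ 0 0 + γ 1 1 = 2) :
    ∃ (δ : SL(2, ℤ)) (m : ℤ), γ = δ * ModularGroup.T ^ m * δ⁻¹ := by
  obtain ⟨p, r, hcop, h1, h2⟩ := exists_fixed_vector γ htr
  obtain ⟨δ, hδ0, hδ1⟩ := hcop.exists_SL2_col 0
  have hdet := Matrix.SpecialLinearGroup.det_coe δ
  rw [Matrix.det_fin_two] at hdet
  have key : (δ⁻¹ * γ * δ) = ModularGroup.T ^ ((δ⁻¹ * γ * δ) 0 1) := by
    apply eq_T_zpow_of_col
    · simp only [Matrix.SpecialLinearGroup.coe_mul, Matrix.SpecialLinearGroup.coe_inv,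
        Matrix.adjugate_fin_two, Matrix.mul_apply, Fin.sum_univ_two, Matrix.of_apply,
        Matrix.cons_val', Matrix.cons_val_zero, Matrix.cons_val_one, Matrix.empty_val',
        Matrix.cons_val_fin_one]
      rw [hδ0, hδ1] at *
      linear_combination (δ 1 1) * h1 - (δ 0 1) * h2 + hdet
    · simp only [Matrix.SpecialLinearGroup.coe_mul, Matrix.SpecialLinearGroup.coe_inv,
        Matrix.adjugate_fin_two, Matrix.mul_apply, Fin.sum_univ_two, Matrix.of_apply,
        Matrix.cons_val', Matrix.cons_val_zero, Matrix.cons_val_one, Matrix.empty_val',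
        Matrix.cons_val_fin_one]
      rw [hδ0, hδ1] at *
      linear_combination (-r) * h1 + p * h2
  refine ⟨δ, (δ⁻¹ * γ * δ) 0 1, ?_⟩
  rw [← key]
  group

/-- Every element of `SL(2, ℤ)` with `trace ^ 2 = 4` is `± δ T^m δ⁻¹`. -/
theorem exists_conj_T_of_trace_sq (γ : SL(2, ℤ))
    (htr : (γ : Matrix (Fin 2) (Fin 2) ℤ).trace ^ 2 = 4) :
    ∃ (δ : SL(2, ℤ)) (m : ℤ), γ = δ * ModularGroup.T ^ m * δ⁻¹ ∨
      γ = -(δ * ModularGroup.T ^ m * δ⁻¹) := by
  rw [Matrix.trace_fin_two] at htr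
  have h : (γ 0 0 + γ 1 1 - 2) * (γ 0 0 + γ 1 1 + 2) = 0 := by linear_combination htr
  rcases mul_eq_zero.mp h with h | h
  · obtain ⟨δ, m, hm⟩ := exists_conj_T_of_trace_two γ (by linarith)
    exact ⟨δ, m, Or.inl hm⟩
  · have h' : (-γ) 0 0 + (-γ) 1 1 = 2 := by
      simp only [Matrix.SpecialLinearGroup.coe_neg, Matrix.neg_apply]
      linarith
    obtain ⟨δ, m, hm⟩ := exists_conj_T_of_trace_two (-γ) h'
    refine ⟨δ, m, Or.inr ?_⟩
    rw [← hm, neg_neg]

theorem mob_neg (g : SL(2, ℤ)) (z : ℂ) : mob (-g) z = mob g z := by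
  rw [mob, mob, ModularGroup.SL_neg_smul]

variable {N : ℕ} [NeZero N]

theorem cuspv_neg (f : CuspForm (CongruenceSubgroup.Gamma0 N) 2) (g : SL(2, ℤ)) :
    cuspv f (-g) = cuspv f g := by
  have h1 : CuspVal (primN f) (-g) (cuspv f g) := by
    refine StripDecay.congr (cuspVal_primN f g) (fun z _ => ?_)
    rw [mob_neg]
  exact (cuspVal_primN f (-g)).unique h1

omit [NeZero N] in
theorem neg_mem_Gamma0 {g : SL(2, ℤ)} (hg : g ∈ CongruenceSubgroup.Gamma0 N) :
    -g ∈ CongruenceSubgroup.Gamma0 N := by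
  rw [CongruenceSubgroup.Gamma0_mem] at hg ⊢
  simp only [Matrix.SpecialLinearGroup.coe_neg, Matrix.neg_apply, Int.cast_neg, hg, neg_zero]

/-- Parabolic elements have zero period. -/
theorem cuspv_eq_zero_of_trace_sq (f : CuspForm (CongruenceSubgroup.Gamma0 N) 2)
    {γ : SL(2, ℤ)} (hγ : γ ∈ CongruenceSubgroup.Gamma0 N)
    (htr : (γ : Matrix (Fin 2) (Fin 2) ℤ).trace ^ 2 = 4) : cuspv f γ = 0 := by
  obtain ⟨δ, m, h | h⟩ := exists_conj_T_of_trace_sq γ htr
  · rw [h]
    exact cuspv_conj_T f δ m (h ▸ hγ)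
  · have h1 : δ * ModularGroup.T ^ m * δ⁻¹ ∈ CongruenceSubgroup.Gamma0 N := by
      have := neg_mem_Gamma0 hγ
      rw [h, neg_neg] at this
      exact this
    rw [h, cuspv_neg]
    exact cuspv_conj_T f δ m h1

/-- **E2**: the period map takes values in parabolic homomorphisms. -/
theorem periodMap_mem_parabolicHoms (f : CuspForm (CongruenceSubgroup.Gamma0 N) 2) :
    periodMap N f ∈ parabolicHoms ℂ (CongruenceSubgroup.Gamma0 N) ℂ := by
  rw [mem_parabolicHoms_iff]
  intro γ hγ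
  rw [periodMap_apply]
  exact cuspv_eq_zero_of_trace_sq f γ.2 hγ

end Fermat.Agent.S21
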