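import Mathlib

/-!
# S21, piece E5 (abstract part): a cellular dimension bound

`X` is a finite transitive `G`-set, `G` generated by `S` and `T`, `U = S * T`.
For a subspace `W` of `X → ℂ` which meets the sum of the `S`-invariant and the `U`-invariant
functions trivially and on which the `T`-orbit sums of `e - e ∘ U` vanish, we show
`dim W + c(S) + c(U) + c(T) ≤ |X| + 2`, where `c(g)` is the number of orbits of `g`.
-/

set_option autoImplicit false

open Module
open scoped Classical

noncomputable section

namespace Fermat.Agent.S21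

section adjoint

theorem rank_toMatrix'_eq {A B : Type*} [Fintype A] [Fintype B] [DecidableEq A] [DecidableEq B]
    (F : (A → ℂ) →ₗ[ℂ] (B → ℂ)) :
    (LinearMap.toMatrix' F).rank = finrank ℂ (LinearMap.range F) := by
  rw [Matrix.rank, ← Matrix.toLin'_apply', Matrix.toLin'_toMatrix']

/-- Two linear maps which are adjoint for the standard pairings have the same rank. -/
theorem finrank_range_eq_of_adjoint {X Y : Type*} [Fintype X] [Fintype Y]
    [DecidableEq X] [DecidableEq Y]
    (f : (X → ℂ) →ₗ[ℂ] (Y → ℂ)) (g : (Y → ℂ) →ₗ[ℂ] (X → ℂ))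
    (h : ∀ x y, f (Pi.single x 1) y = g (Pi.single y 1) x) :
    finrank ℂ (LinearMap.range f) = finrank ℂ (LinearMap.range g) := by
  have hg : LinearMap.toMatrix' g = (LinearMap.toMatrix' f).transpose := by
    ext x y
    rw [Matrix.transpose_apply, LinearMap.toMatrix'_apply, LinearMap.toMatrix'_apply, h]
  rw [← rank_toMatrix'_eq f, ← rank_toMatrix'_eq g, hg, Matrix.rank_transpose]

end adjoint

section cell

variable {G : Type*} (X : Type*) [Group G] [MulAction G X]

/-- The orbit space of the cyclic group generated by `g`. -/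
abbrev Orb (g : G) : Type _ := MulAction.orbitRel.Quotient (Subgroup.zpowers g) X

variable {X}

/-- The projection to the orbit space. -/
def orbProj (g : G) (x : X) : Orb X g := Quotient.mk'' x

theorem orbProj_surjective (g : G) : Function.Surjective (orbProj (X := X) g) :=
  Quotient.mk''_surjective

theorem orbProj_eq_iff (g : G) (x y : X) :
    orbProj g x = orbProj g y ↔ ∃ k : ℤ, g ^ k • y = x := by
  rw [orbProj, orbProj, Quotient.eq'']
  show (MulAction.orbitRel (Subgroup.zpowers g) X) x y ↔ _
  rw [MulAction.orbitRel_apply]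
  constructor
  · rintro ⟨⟨h, hh⟩, rfl⟩
    obtain ⟨k, rfl⟩ := Subgroup.mem_zpowers_iff.mp hh
    exact ⟨k, rfl⟩
  · rintro ⟨k, rfl⟩
    exact ⟨⟨g ^ k, Subgroup.mem_zpowers_iff.mpr ⟨k, rfl⟩⟩, rfl⟩

theorem orbProj_smul (g : G) (x : X) : orbProj g (g • x) = orbProj g x :=
  (orbProj_eq_iff g _ _).mpr ⟨1, by simp⟩

theorem orbProj_inv_smul (g : G) (x : X) : orbProj g (g⁻¹ • x) = orbProj g x :=
  (orbProj_eq_iff g _ _).mpr ⟨-1, by simp⟩

/-- Pullback of functions along `x ↦ g • x`. -/
def pull (g : G) : (X → ℂ) →ₗ[ℂ] (X → ℂ) := LinearMap.funLeft ℂ ℂ (fun x => g • x)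

@[simp] theorem pull_apply (g : G) (v : X → ℂ) (x : X) : pull g v x = v (g • x) := rfl

theorem pull_mul (g h : G) (v : X → ℂ) : pull (g * h) v = pull h (pull g v) := by
  ext x
  simp [mul_smul]

theorem pull_one (v : X → ℂ) : pull (1 : G) v = v := by
  ext x
  simp

/-- Pullback of functions on the orbit space. -/
def orbPull (g : G) : (Orb X g → ℂ) →ₗ[ℂ] (X → ℂ) := LinearMap.funLeft ℂ ℂ (orbProj g)

@[simp] theorem orbPull_apply (g : G) (μ : Orb X g → ℂ) (x : X) :
    orbPull g μ x = μ (orbProj g x) := rfl

theorem orbPull_injective (g : G) : Function.Injective (orbPull (X := X) g) :=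
  LinearMap.funLeft_injective_of_surjective ℂ ℂ _ (orbProj_surjective g)

theorem pull_orbPull (g : G) (μ : Orb X g → ℂ) : pull g (orbPull g μ) = orbPull g μ := by
  ext x
  simp [orbProj_smul]

theorem pull_inv_orbPull (g : G) (μ : Orb X g → ℂ) : pull g⁻¹ (orbPull g μ) = orbPull g μ := by
  ext x
  simp [orbProj_inv_smul]

/-- The functions invariant under a set of generators are invariant under the whole group. -/
theorem pull_eq_of_closure (S T : G) (hgen : Subgroup.closure {S, T} = ⊤) (v : X → ℂ)
    (hS : pull S v = v) (hT : pull T v = v) (g : G) : pull g v = v := by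
  let H : Subgroup G :=
    { carrier := {g | pull g v = v}
      one_mem' := pull_one v
      mul_mem' := by
        intro a b ha hb
        show pull (a * b) v = v
        rw [pull_mul, show pull a v = v from ha, show pull b v = v from hb]
      inv_mem' := by
        intro a ha
        show pull a⁻¹ v = v
        have h1 : pull a⁻¹ (pull a v) = v := by
          rw [← pull_mul, mul_inv_cancel, pull_one]
        rw [show pull a v = v from ha] at h1
        exact h1 }
  have hle : Subgroup.closure {S, T} ≤ H := by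
    rw [Subgroup.closure_le]
    intro x hx
    rcases hx with rfl | hx
    · exact hS
    · rw [Set.mem_singleton_iff] at hx
      subst hx
      exact hT
  have : g ∈ H := hle (by rw [hgen]; exact Subgroup.mem_top g)
  exact this

theorem const_of_invariant [MulAction.IsPretransitive G X] (S T : G)
    (hgen : Subgroup.closure {S, T} = ⊤) (v : X → ℂ)
    (hS : pull S v = v) (hT : pull T v = v) (x y : X) : v x = v y := by
  obtain ⟨g, rfl⟩ := MulAction.exists_smul_eq G y x
  have := congrFun (pull_eq_of_closure S T hgen v hS hT g) y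
  simpa using this

variable [Fintype X]

/-- Sum over the orbits. -/
def orbSum (g : G) : (X → ℂ) →ₗ[ℂ] (Orb X g → ℂ) where
  toFun v q := ∑ x, if orbProj g x = q then v x else 0
  map_add' v w := by
    ext q
    simp only [Pi.add_apply]
    rw [← Finset.sum_add_distrib]
    refine Finset.sum_congr rfl fun x _ => ?_
    split_ifs <;> simp
  map_smul' c v := by
    ext q
    simp only [Pi.smul_apply, smul_eq_mul, RingHom.id_apply]
    rw [Finset.mul_sum]
    refine Finset.sum_congr rfl fun x _ => ?_
    split_ifs <;> simp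

theorem orbSum_apply (g : G) (v : X → ℂ) (q : Orb X g) :
    orbSum g v q = ∑ x, if orbProj g x = q then v x else 0 := rfl

theorem orbSum_pull (g : G) (v : X → ℂ) : orbSum g (pull g v) = orbSum g v := by
  ext q
  rw [orbSum_apply, orbSum_apply]
  refine Fintype.sum_equiv (MulAction.toPerm g) _ _ fun x => ?_
  simp only [pull_apply, MulAction.toPerm_apply, orbProj_smul]

/-- The first differential: invariant functions. -/
def d1 (S U : G) : ((Orb X S → ℂ) × (Orb X U → ℂ)) →ₗ[ℂ] (X → ℂ) :=
  (orbPull S).coprod (orbPull U)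

/-- The second differential. -/
def d2 (U T : G) : (X → ℂ) →ₗ[ℂ] (Orb X T → ℂ) :=
  (orbSum T) ∘ₗ (LinearMap.id - pull U)

/-- The adjoint of the second differential. -/
def d2adj (U T : G) : (Orb X T → ℂ) →ₗ[ℂ] (X → ℂ) :=
  (LinearMap.id - pull U⁻¹) ∘ₗ orbPull T

theorem d2_apply (U T : G) (e : X → ℂ) : d2 U T e = orbSum T (e - pull U e) := rfl

omit [Fintype X] in
theorem d2adj_apply (U T : G) (μ : Orb X T → ℂ) :
    d2adj U T μ = orbPull T μ - pull U⁻¹ (orbPull T μ) := rfl

theorem d2_adjoint (U T : G) (x : X) (q : Orb X T) :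
    d2 U T (Pi.single x 1) q = d2adj U T (Pi.single q 1) x := by
  rw [d2_apply, d2adj_apply, orbSum_apply]
  simp only [Pi.sub_apply, pull_apply, orbPull_apply, Pi.single_apply]
  have h1 : ∀ z : X, (if orbProj T z = q then
      ((if z = x then (1 : ℂ) else 0) - (if U • z = x then (1 : ℂ) else 0)) else 0)
      = (if z = x then (if orbProj T x = q then (1 : ℂ) else 0) else 0)
        - (if z = U⁻¹ • x then (if orbProj T (U⁻¹ • x) = q then (1 : ℂ) else 0) else 0) := by
    intro z
    have e1 : U • z = x ↔ z = U⁻¹ • x := by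
      constructor
      · intro h
        rw [← h, inv_smul_smul]
      · intro h
        rw [h, smul_inv_smul]
    by_cases hz1 : z = x
    · by_cases hz2 : z = U⁻¹ • x
      · have hz2' : U • z = x := e1.mpr hz2
        rw [if_pos hz1, if_pos hz2', if_pos hz1, if_pos hz2, ← hz2, ← hz1]
        split_ifs <;> simp
      · have hz2' : ¬ U • z = x := fun h => hz2 (e1.mp h)
        rw [if_pos hz1, if_neg hz2', if_pos hz1, if_neg hz2, ← hz1]
        split_ifs <;> simp
    · by_cases hz2 : z = U⁻¹ • x
      · have hz2' : U • z = x := e1.mpr hz2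
        rw [if_neg hz1, if_pos hz2', if_neg hz1, if_pos hz2, ← hz2]
        split_ifs <;> simp
      · have hz2' : ¬ U • z = x := fun h => hz2 (e1.mp h)
        rw [if_neg hz1, if_neg hz2', if_neg hz1, if_neg hz2]
        simp
  rw [Finset.sum_congr rfl (fun z _ => h1 z), Finset.sum_sub_distrib,
    Finset.sum_ite_eq' Finset.univ x, Finset.sum_ite_eq' Finset.univ (U⁻¹ • x)]
  simp

variable [MulAction.IsPretransitive G X]

omit [Fintype X] in
/-- The kernel of the adjoint of `d2` consists of constants. -/
theorem ker_d2adj_le (S T : G) (hgen : Subgroup.closure {S, T} = ⊤) :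
    LinearMap.ker (d2adj (X := X) (S * T) T) ≤ Submodule.span ℂ {fun _ => (1 : ℂ)} := by
  intro μ hμ
  rw [LinearMap.mem_ker, d2adj_apply, sub_eq_zero] at hμ
  set v : X → ℂ := orbPull T μ with hv
  have hT : pull T v = v := pull_orbPull T μ
  have hU : pull (S * T) v = v := by
    have h1 : pull (S * T) (pull (S * T)⁻¹ v) = v := by
      rw [← pull_mul, inv_mul_cancel, pull_one]
    rw [← hμ] at h1
    exact h1
  have hS : pull S v = v := by
    have h1 : pull T (pull S v) = v := by rw [← pull_mul]; exact hU
    have h2 : pull T⁻¹ (pull T (pull S v)) = pull S v := by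
      rw [← pull_mul, mul_inv_cancel, pull_one]
    rw [h1] at h2
    rw [← h2]
    exact pull_inv_orbPull T μ
  rw [Submodule.mem_span_singleton]
  by_cases hX : Nonempty X
  · obtain ⟨x₀⟩ := hX
    refine ⟨v x₀, ?_⟩
    ext q
    obtain ⟨x, rfl⟩ := orbProj_surjective T q
    simp only [Pi.smul_apply, smul_eq_mul, mul_one]
    have := const_of_invariant S T hgen v hS hT x₀ x
    rw [this]
    rfl
  · refine ⟨0, ?_⟩
    ext q
    obtain ⟨x, rfl⟩ := orbProj_surjective T q
    exact absurd ⟨x⟩ hX

omit [Fintype X] in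
/-- The kernel of `d1` is at most one-dimensional. -/
theorem ker_d1_le (S T : G) (hgen : Subgroup.closure {S, T} = ⊤) :
    LinearMap.ker (d1 (X := X) S (S * T))
      ≤ Submodule.span ℂ {((fun _ => (1 : ℂ)), (fun _ => (-1 : ℂ)))} := by
  rintro ⟨α, β⟩ h
  rw [LinearMap.mem_ker, d1, LinearMap.coprod_apply] at h
  set v : X → ℂ := orbPull S α with hv
  have hvβ : v = -orbPull (S * T) β := eq_neg_of_add_eq_zero_left h
  have hS : pull S v = v := pull_orbPull S α
  have hU : pull (S * T) v = v := by
    rw [hvβ, map_neg, pull_orbPull]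
  have hT : pull T v = v := by
    have h1 : pull T (pull S v) = v := by rw [← pull_mul]; exact hU
    rw [hS] at h1
    exact h1
  rw [Submodule.mem_span_singleton]
  by_cases hX : Nonempty X
  · obtain ⟨x₀⟩ := hX
    refine ⟨v x₀, ?_⟩
    refine Prod.ext ?_ ?_
    · ext q
      obtain ⟨x, rfl⟩ := orbProj_surjective S q
      simp only [Prod.smul_fst, Pi.smul_apply, smul_eq_mul, mul_one]
      have := const_of_invariant S T hgen v hS hT x₀ x
      rw [this]
      rfl
    · ext q
      obtain ⟨x, rfl⟩ := orbProj_surjective (S * T) q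
      simp only [Prod.smul_snd, Pi.smul_apply, smul_eq_mul, mul_neg, mul_one]
      have := const_of_invariant S T hgen v hS hT x₀ x
      rw [this]
      have h2 := congrFun hvβ x
      simp only [Pi.neg_apply, orbPull_apply] at h2
      rw [h2, neg_neg]
  · refine ⟨0, ?_⟩
    refine Prod.ext ?_ ?_
    · ext q
      obtain ⟨x, rfl⟩ := orbProj_surjective S q
      exact absurd ⟨x⟩ hX
    · ext q
      obtain ⟨x, rfl⟩ := orbProj_surjective (S * T) q
      exact absurd ⟨x⟩ hX

omit [MulAction.IsPretransitive G X] in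
theorem range_d1_le_ker_d2 (S T : G) :
    LinearMap.range (d1 (X := X) S (S * T)) ≤ LinearMap.ker (d2 (X := X) (S * T) T) := by
  rintro _ ⟨⟨α, β⟩, rfl⟩
  rw [LinearMap.mem_ker, d1, LinearMap.coprod_apply, d2_apply, map_add, pull_orbPull,
    pull_mul, pull_orbPull]
  have : orbPull S α + orbPull (S * T) β - (pull T (orbPull S α) + orbPull (S * T) β)
      = orbPull S α - pull T (orbPull S α) := by abel
  rw [this, map_sub, orbSum_pull, sub_self]

theorem finrank_span_singleton_le_one {V : Type*} [AddCommGroup V] [Module ℂ V] (v : V) :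
    finrank ℂ (Submodule.span ℂ {v}) ≤ 1 := by
  have := finrank_span_finset_le_card (R := ℂ) ({v} : Finset V)
  rw [Set.finrank, Finset.coe_singleton, Finset.card_singleton] at this
  exact this

/-- **The cellular dimension bound.** -/
theorem cell_bound (S T : G) (hgen : Subgroup.closure {S, T} = ⊤)
    (W : Submodule ℂ (X → ℂ))
    (h1 : ∀ e ∈ W, e ∈ LinearMap.range (d1 (X := X) S (S * T)) → e = 0)
    (h2 : ∀ e ∈ W, d2 (S * T) T e = 0) :
    finrank ℂ W + Nat.card (Orb X S) + Nat.card (Orb X (S * T)) + Nat.card (Orb X T)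
      ≤ Nat.card X + 2 := by
  have : Finite (Orb X S) := Finite.of_surjective _ (orbProj_surjective S)
  have : Finite (Orb X (S * T)) := Finite.of_surjective _ (orbProj_surjective (S * T))
  have : Finite (Orb X T) := Finite.of_surjective _ (orbProj_surjective T)
  let _ : Fintype (Orb X S) := Fintype.ofFinite _
  let _ : Fintype (Orb X (S * T)) := Fintype.ofFinite _
  let _ : Fintype (Orb X T) := Fintype.ofFinite _
  have hcS : finrank ℂ (Orb X S → ℂ) = Nat.card (Orb X S) := by
    rw [Module.finrank_fintype_fun_eq_card, Nat.card_eq_fintype_card]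
  have hcU : finrank ℂ (Orb X (S * T) → ℂ) = Nat.card (Orb X (S * T)) := by
    rw [Module.finrank_fintype_fun_eq_card, Nat.card_eq_fintype_card]
  have hcT : finrank ℂ (Orb X T → ℂ) = Nat.card (Orb X T) := by
    rw [Module.finrank_fintype_fun_eq_card, Nat.card_eq_fintype_card]
  have hn : finrank ℂ (X → ℂ) = Nat.card X := by
    rw [Module.finrank_fintype_fun_eq_card, Nat.card_eq_fintype_card]
  -- the rank of `d1`
  have hb := LinearMap.finrank_range_add_finrank_ker (d1 (X := X) S (S * T))
  rw [Module.finrank_prod, hcS, hcU] at hb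
  have hker1 : finrank ℂ (LinearMap.ker (d1 (X := X) S (S * T))) ≤ 1 :=
    (Submodule.finrank_mono (ker_d1_le S T hgen)).trans (finrank_span_singleton_le_one _)
  -- the rank of `d2`
  have hc := LinearMap.finrank_range_add_finrank_ker (d2 (X := X) (S * T) T)
  rw [hn] at hc
  have hadj : finrank ℂ (LinearMap.range (d2 (X := X) (S * T) T))
      = finrank ℂ (LinearMap.range (d2adj (X := X) (S * T) T)) :=
    finrank_range_eq_of_adjoint _ _ (d2_adjoint (S * T) T)
  have hc' := LinearMap.finrank_range_add_finrank_ker (d2adj (X := X) (S * T) T)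
  rw [hcT] at hc'
  have hker2 : finrank ℂ (LinearMap.ker (d2adj (X := X) (S * T) T)) ≤ 1 :=
    (Submodule.finrank_mono (ker_d2adj_le S T hgen)).trans (finrank_span_singleton_le_one _)
  -- `W` and the range of `d1` are independent inside the kernel of `d2`
  have hdisj : W ⊓ LinearMap.range (d1 (X := X) S (S * T)) = ⊥ := by
    rw [eq_bot_iff]
    rintro e ⟨he1, he2⟩
    exact h1 e he1 he2
  have hle : W ⊔ LinearMap.range (d1 (X := X) S (S * T))
      ≤ LinearMap.ker (d2 (X := X) (S * T) T) :=
    sup_le (fun e he => LinearMap.mem_ker.mpr (h2 e he)) (range_d1_le_ker_d2 S T)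
  have hd : finrank ℂ W + finrank ℂ (LinearMap.range (d1 (X := X) S (S * T)))
      ≤ finrank ℂ (LinearMap.ker (d2 (X := X) (S * T) T)) := by
    have h3 := Submodule.finrank_sup_add_finrank_inf_eq W
      (LinearMap.range (d1 (X := X) S (S * T)))
    rw [hdisj, finrank_bot, add_zero] at h3
    rw [← h3]
    exact Submodule.finrank_mono hle
  omega

end cell

end Fermat.Agent.S21
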