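import Mathlib
import Fermat.Prelude.Def_ModularCurve_PeriodMap
import Fermat.Agent.S21.Cell
import Fermat.Agent.Lib.Gamma0Count.Ree
import Fermat.Agent.Lib.Gamma0Count.CuspBridge

/-!
# S21, piece E5 (Shapiro by hand)

A homomorphism `φ : Γ₀(N) → ℂ` gives a cocycle `κ_φ` on `SL(2, ℤ)` with values in the functions on
`X = SL(2, ℤ) ⧸ Γ₀(N)`, and then a cellular cochain `θ φ : X → ℂ`.
-/

set_option autoImplicit false

open Module CongruenceSubgroup ModularCurve.Period
open scoped MatrixGroups Classical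

noncomputable section

namespace Fermat.Agent.S21

variable (N : ℕ)

/-- The coset space. -/
abbrev XN : Type := SL(2, ℤ) ⧸ Gamma0 N

/-- Extension by zero of a homomorphism on `Γ₀(N)`. -/
def extHom (φ : Additive (Gamma0 N) →+ ℂ) (g : SL(2, ℤ)) : ℂ :=
  if h : g ∈ Gamma0 N then φ (Additive.ofMul ⟨g, h⟩) else 0

variable {N}

theorem extHom_of_mem (φ : Additive (Gamma0 N) →+ ℂ) {g : SL(2, ℤ)} (h : g ∈ Gamma0 N) :
    extHom N φ g = φ (Additive.ofMul ⟨g, h⟩) := dif_pos h

theorem extHom_mul (φ : Additive (Gamma0 N) →+ ℂ) {g h : SL(2, ℤ)} (hg : g ∈ Gamma0 N)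
    (hh : h ∈ Gamma0 N) : extHom N φ (g * h) = extHom N φ g + extHom N φ h := by
  rw [extHom_of_mem φ hg, extHom_of_mem φ hh, extHom_of_mem φ (mul_mem hg hh), ← map_add]
  rfl

theorem extHom_one (φ : Additive (Gamma0 N) →+ ℂ) : extHom N φ 1 = 0 := by
  rw [extHom_of_mem φ (one_mem _)]
  exact map_zero φ

theorem neg_one_mem_Gamma0 : (-1 : SL(2, ℤ)) ∈ Gamma0 N := by
  rw [Gamma0_mem]
  simp

theorem extHom_neg_one (φ : Additive (Gamma0 N) →+ ℂ) : extHom N φ (-1) = 0 := by
  have h := extHom_mul φ (neg_one_mem_Gamma0 (N := N)) (neg_one_mem_Gamma0 (N := N))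
  have h1 : (-1 : SL(2, ℤ)) * (-1) = 1 := by simp
  rw [h1, extHom_one] at h
  have h2 : (2 : ℂ) * extHom N φ (-1) = 0 := by rw [two_mul]; exact h.symm
  rcases mul_eq_zero.mp h2 with h3 | h3
  · exact absurd h3 two_ne_zero
  · exact h3

theorem extHom_inv (φ : Additive (Gamma0 N) →+ ℂ) {g : SL(2, ℤ)} (hg : g ∈ Gamma0 N) :
    extHom N φ g⁻¹ = -extHom N φ g := by
  have h := extHom_mul φ (inv_mem hg) hg
  rw [inv_mul_cancel, extHom_one] at h
  exact eq_neg_of_add_eq_zero_left h.symm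

theorem extHom_add (φ ψ : Additive (Gamma0 N) →+ ℂ) (g : SL(2, ℤ)) :
    extHom N (φ + ψ) g = extHom N φ g + extHom N ψ g := by
  by_cases h : g ∈ Gamma0 N
  · rw [extHom_of_mem _ h, extHom_of_mem _ h, extHom_of_mem _ h]
    rfl
  · simp [extHom, h]

theorem extHom_smul (c : ℂ) (φ : Additive (Gamma0 N) →+ ℂ) (g : SL(2, ℤ)) :
    extHom N (c • φ) g = c * extHom N φ g := by
  by_cases h : g ∈ Gamma0 N
  · rw [extHom_of_mem _ h, extHom_of_mem _ h]
    rfl
  · simp [extHom, h]

variable (N)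

/-- Coset representatives. -/
def rep (x : XN N) : SL(2, ℤ) := Quotient.out x

variable {N}

theorem mk_rep (x : XN N) : ((rep N x : SL(2, ℤ)) : XN N) = x := QuotientGroup.out_eq' x

theorem rep_mem (g : SL(2, ℤ)) (x : XN N) : (rep N (g • x))⁻¹ * g * rep N x ∈ Gamma0 N := by
  have h1 : ((rep N (g • x) : SL(2, ℤ)) : XN N) = ((g * rep N x : SL(2, ℤ)) : XN N) := by
    rw [mk_rep]
    conv_lhs => rw [← mk_rep x]
    rfl
  rw [mul_assoc]
  exact QuotientGroup.eq.mp h1

/-- The cocycle attached to a homomorphism. -/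
def kap (φ : Additive (Gamma0 N) →+ ℂ) (g : SL(2, ℤ)) : XN N → ℂ :=
  fun x => extHom N φ ((rep N (g • x))⁻¹ * g * rep N x)

theorem kap_apply (φ : Additive (Gamma0 N) →+ ℂ) (g : SL(2, ℤ)) (x : XN N) :
    kap φ g x = extHom N φ ((rep N (g • x))⁻¹ * g * rep N x) := rfl

theorem kap_mul_apply (φ : Additive (Gamma0 N) →+ ℂ) (g h : SL(2, ℤ)) (x : XN N) :
    kap φ (g * h) x = kap φ g (h • x) + kap φ h x := by
  rw [kap_apply, kap_apply, kap_apply, ← extHom_mul φ (rep_mem g (h • x)) (rep_mem h x)]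
  congr 1
  rw [mul_smul]
  group

theorem kap_mul (φ : Additive (Gamma0 N) →+ ℂ) (g h : SL(2, ℤ)) :
    kap φ (g * h) = pull h (kap φ g) + kap φ h := by
  ext x
  rw [kap_mul_apply]
  rfl

theorem kap_one (φ : Additive (Gamma0 N) →+ ℂ) : kap φ 1 = 0 := by
  ext x
  rw [kap_apply]
  have : (rep N ((1 : SL(2, ℤ)) • x))⁻¹ * 1 * rep N x = 1 := by
    rw [one_smul]
    group
  rw [this, extHom_one]
  rfl

theorem kap_neg_one (φ : Additive (Gamma0 N) →+ ℂ) : kap φ (-1) = 0 := by
  ext x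
  rw [kap_apply]
  have : (rep N ((-1 : SL(2, ℤ)) • x))⁻¹ * (-1) * rep N x = -1 := by
    rw [Fermat.Agent.Lib.Gamma0Count.neg_one_smul_quotient]
    rw [mul_neg, mul_one, neg_mul, inv_mul_cancel]
  rw [this, extHom_neg_one]
  rfl

theorem kap_add (φ ψ : Additive (Gamma0 N) →+ ℂ) (g : SL(2, ℤ)) :
    kap (φ + ψ) g = kap φ g + kap ψ g := by
  ext x
  simp only [kap_apply, Pi.add_apply, extHom_add]

theorem kap_smul (c : ℂ) (φ : Additive (Gamma0 N) →+ ℂ) (g : SL(2, ℤ)) :
    kap (c • φ) g = c • kap φ g := by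
  ext x
  simp only [kap_apply, Pi.smul_apply, extHom_smul, smul_eq_mul]

/-- The value of the cocycle at the base point recovers the homomorphism. -/
theorem kap_base (φ : Additive (Gamma0 N) →+ ℂ) (γ : Gamma0 N) :
    kap φ (γ : SL(2, ℤ)) ((1 : SL(2, ℤ)) : XN N) = φ (Additive.ofMul γ) := by
  have hx : ((γ : SL(2, ℤ)) • (((1 : SL(2, ℤ)) : XN N))) = (((1 : SL(2, ℤ)) : XN N)) := by
    show (((γ : SL(2, ℤ)) * 1 : SL(2, ℤ)) : XN N) = _
    rw [QuotientGroup.eq]
    simp
  have hr : rep N (((1 : SL(2, ℤ)) : XN N)) ∈ Gamma0 N := by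
    have h1 := mk_rep (N := N) (((1 : SL(2, ℤ)) : XN N))
    rw [QuotientGroup.eq] at h1
    have := inv_mem h1
    simpa using this
  rw [kap_apply, hx, extHom_mul φ (mul_mem (inv_mem hr) γ.2) hr,
    extHom_mul φ (inv_mem hr) γ.2, extHom_inv φ hr, extHom_of_mem φ γ.2]
  ring

/-- `T ^ N` acts trivially on the coset space. -/
theorem T_pow_smul (x : XN N) : ModularGroup.T ^ N • x = x := by
  obtain ⟨p, rfl⟩ := Fermat.Agent.Lib.Gamma0Count.cls_surjective (N := N) x
  rw [Fermat.Agent.Lib.Gamma0Count.smul_cls]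
  congr 1
  apply Subtype.ext
  show Fermat.Agent.Lib.Gamma0Count.act (ModularGroup.T ^ N) p.1 = p.1
  have h := Fermat.Agent.Lib.Gamma0Count.act_T_zpow (N := N) (N : ℤ) p.1
  rw [zpow_natCast] at h
  rw [h]
  simp

theorem trace_conj_T_pow (r : SL(2, ℤ)) (k : ℕ) :
    ((r⁻¹ * ModularGroup.T ^ k * r : SL(2, ℤ)) : Matrix (Fin 2) (Fin 2) ℤ).trace = 2 := by
  have h1 : ((r⁻¹ * ModularGroup.T ^ k * r : SL(2, ℤ)) : Matrix (Fin 2) (Fin 2) ℤ)
      = (r⁻¹ : SL(2, ℤ)).1 * ((ModularGroup.T ^ k : SL(2, ℤ)).1 * r.1) := by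
    rw [mul_assoc]
    rfl
  rw [h1, Matrix.trace_mul_comm, Matrix.mul_assoc]
  have h2 : r.1 * (r⁻¹ : SL(2, ℤ)).1 = 1 := by
    have : ((r * r⁻¹ : SL(2, ℤ)) : Matrix (Fin 2) (Fin 2) ℤ) = 1 := by
      rw [mul_inv_cancel]
      rfl
    exact this
  rw [h2, Matrix.mul_one]
  have h3 := ModularGroup.coe_T_zpow (k : ℤ)
  rw [zpow_natCast] at h3
  show ((ModularGroup.T ^ k : SL(2, ℤ)) : Matrix (Fin 2) (Fin 2) ℤ).trace = 2
  rw [h3, Matrix.trace_fin_two_of]
  norm_num

/-- For a parabolic homomorphism the cocycle vanishes at `T ^ N`. -/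
theorem kap_T_pow (φ : Additive (Gamma0 N) →+ ℂ) (hφ : φ ∈ parabolicHoms ℂ (Gamma0 N) ℂ) :
    kap φ (ModularGroup.T ^ N) = 0 := by
  ext x
  rw [kap_apply]
  have hmem := rep_mem (N := N) (ModularGroup.T ^ N) x
  rw [T_pow_smul] at hmem ⊢
  rw [extHom_of_mem φ hmem]
  exact hφ ⟨_, hmem⟩ (by
    show ((rep N x)⁻¹ * ModularGroup.T ^ N * rep N x : SL(2, ℤ)).1.trace ^ 2 = 4
    rw [trace_conj_T_pow]
    norm_num)

variable (N) in
/-- The coset space is finite. -/
@[reducible] def fintypeXN [NeZero N] : Fintype (XN N) :=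
  haveI : Finite (XN N) := Subgroup.finite_quotient_of_finiteIndex
  Fintype.ofFinite _

attribute [local instance] fintypeXN

theorem orbSum_kap_T_pow [NeZero N] (φ : Additive (Gamma0 N) →+ ℂ) (k : ℕ) :
    orbSum ModularGroup.T (kap φ (ModularGroup.T ^ k))
      = (k : ℂ) • orbSum ModularGroup.T (kap φ ModularGroup.T) := by
  induction k with
  | zero => simp [kap_one]
  | succ k ih =>
    rw [pow_succ, kap_mul, map_add, orbSum_pull, ih]
    push_cast
    rw [add_smul, one_smul]

/-- For a parabolic homomorphism the `T`-orbit sums of the cocycle at `T` vanish. -/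
theorem orbSum_kap_T [NeZero N] (φ : Additive (Gamma0 N) →+ ℂ)
    (hφ : φ ∈ parabolicHoms ℂ (Gamma0 N) ℂ) :
    orbSum ModularGroup.T (kap φ ModularGroup.T) = 0 := by
  have h := orbSum_kap_T_pow φ N
  rw [kap_T_pow φ hφ, map_zero] at h
  have hN : (N : ℂ) ≠ 0 := Nat.cast_ne_zero.mpr (NeZero.ne N)
  rcases smul_eq_zero.mp h.symm with h1 | h1
  · exact absurd h1 hN
  · exact h1

theorem pull_S_kap_S (φ : Additive (Gamma0 N) →+ ℂ) :
    pull ModularGroup.S (kap φ ModularGroup.S) = -kap φ ModularGroup.S := by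
  have h := kap_mul φ ModularGroup.S ModularGroup.S
  have h1 : ModularGroup.S * ModularGroup.S = (-1 : SL(2, ℤ)) := by
    rw [← pow_two, Fermat.Agent.Lib.Gamma0Count.S_pow_two_eq]
  rw [h1, kap_neg_one] at h
  exact eq_neg_of_add_eq_zero_left h.symm

theorem kap_U_relation (φ : Additive (Gamma0 N) →+ ℂ) :
    pull (ModularGroup.S * ModularGroup.T)
        (pull (ModularGroup.S * ModularGroup.T) (kap φ (ModularGroup.S * ModularGroup.T)))
      + pull (ModularGroup.S * ModularGroup.T) (kap φ (ModularGroup.S * ModularGroup.T))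
      + kap φ (ModularGroup.S * ModularGroup.T) = 0 := by
  set U : SL(2, ℤ) := ModularGroup.S * ModularGroup.T with hU
  have h2 := kap_mul φ U U
  have h3 := kap_mul φ (U * U) U
  have h1 : U * U * U = (-1 : SL(2, ℤ)) := by
    rw [← pow_two, ← pow_succ]
    exact Fermat.Agent.Lib.Gamma0Count.ST_pow_three_eq
  rw [h1, kap_neg_one, h2, map_add] at h3
  exact h3.symm

/-- The `S`-part of the cochain. -/
def alphaP (φ : Additive (Gamma0 N) →+ ℂ) : XN N → ℂ :=
  (-(1 / 2 : ℂ)) • kap φ ModularGroup.S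

/-- The `U`-part of the cochain. -/
def betaP (φ : Additive (Gamma0 N) →+ ℂ) : XN N → ℂ :=
  (-(1 / 3 : ℂ)) • ((2 : ℂ) • kap φ (ModularGroup.S * ModularGroup.T)
    + pull (ModularGroup.S * ModularGroup.T) (kap φ (ModularGroup.S * ModularGroup.T)))

theorem pull_S_alphaP (φ : Additive (Gamma0 N) →+ ℂ) :
    pull ModularGroup.S (alphaP φ) - alphaP φ = kap φ ModularGroup.S := by
  rw [alphaP, map_smul, pull_S_kap_S]
  ext x
  simp only [Pi.sub_apply, Pi.smul_apply, Pi.neg_apply, smul_eq_mul]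
  ring

theorem pull_U_betaP (φ : Additive (Gamma0 N) →+ ℂ) :
    pull (ModularGroup.S * ModularGroup.T) (betaP φ) - betaP φ
      = kap φ (ModularGroup.S * ModularGroup.T) := by
  have h := kap_U_relation φ
  set U : SL(2, ℤ) := ModularGroup.S * ModularGroup.T with hU
  rw [betaP, map_smul, map_add, map_smul]
  ext x
  have hx := congrFun h x
  simp only [Pi.add_apply, Pi.zero_apply] at hx
  simp only [Pi.sub_apply, Pi.smul_apply, Pi.add_apply, smul_eq_mul]
  linear_combination (-(1 / 3 : ℂ)) * hx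

/-- The cellular cochain attached to a homomorphism. -/
def theta (N : ℕ) : (Additive (Gamma0 N) →+ ℂ) →ₗ[ℂ] (XN N → ℂ) where
  toFun φ := alphaP φ - betaP φ
  map_add' φ ψ := by
    ext x
    simp only [alphaP, betaP, kap_add, map_add, Pi.sub_apply, Pi.smul_apply, Pi.add_apply,
      smul_eq_mul]
    ring
  map_smul' c φ := by
    ext x
    simp only [alphaP, betaP, kap_smul, map_smul, Pi.sub_apply, Pi.smul_apply, Pi.add_apply,
      smul_eq_mul, RingHom.id_apply]
    ring

theorem theta_apply (φ : Additive (Gamma0 N) →+ ℂ) : theta N φ = alphaP φ - betaP φ := rfl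

/-- The cochain of a parabolic homomorphism is a cocycle. -/
theorem d2_theta [NeZero N] (φ : Additive (Gamma0 N) →+ ℂ)
    (hφ : φ ∈ parabolicHoms ℂ (Gamma0 N) ℂ) :
    d2 (ModularGroup.S * ModularGroup.T) ModularGroup.T (theta N φ) = 0 := by
  have hT := kap_mul φ ModularGroup.S ModularGroup.T
  have h1 := pull_S_alphaP φ
  have h2 := pull_U_betaP φ
  have h3 : pull (ModularGroup.S * ModularGroup.T) (alphaP φ)
      = pull ModularGroup.T (pull ModularGroup.S (alphaP φ)) := pull_mul _ _ _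
  have h4 : theta N φ - pull (ModularGroup.S * ModularGroup.T) (theta N φ)
      = kap φ ModularGroup.T - (pull ModularGroup.T (alphaP φ) - alphaP φ) := by
    rw [theta_apply, map_sub, h3]
    have h5 : pull ModularGroup.S (alphaP φ) = kap φ ModularGroup.S + alphaP φ := by
      rw [← h1]; abel
    rw [h5, map_add]
    have h6 : pull (ModularGroup.S * ModularGroup.T) (betaP φ)
        = pull ModularGroup.T (kap φ ModularGroup.S) + kap φ ModularGroup.T + betaP φ := by
      rw [← hT, ← h2]; abel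
    rw [h6]
    abel
  rw [d2_apply, h4, map_sub, map_sub, orbSum_pull, sub_self, sub_zero, orbSum_kap_T φ hφ]

/-- The cochain of a nonzero homomorphism is not a coboundary. -/
theorem eq_zero_of_theta_mem [NeZero N] (φ : Additive (Gamma0 N) →+ ℂ)
    (h : theta N φ ∈ LinearMap.range
      (d1 (X := XN N) ModularGroup.S (ModularGroup.S * ModularGroup.T))) : φ = 0 := by
  obtain ⟨⟨α, β⟩, hαβ⟩ := h
  rw [d1, LinearMap.coprod_apply, theta_apply] at hαβ
  set v : XN N → ℂ := alphaP φ - orbPull ModularGroup.S α with hv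
  have hv' : v = betaP φ + orbPull (ModularGroup.S * ModularGroup.T) β := by
    rw [hv]
    have : alphaP φ = orbPull ModularGroup.S α + orbPull (ModularGroup.S * ModularGroup.T) β
        + betaP φ := by rw [hαβ]; abel
    rw [this]
    abel
  have hS : kap φ ModularGroup.S = pull ModularGroup.S v - v := by
    rw [hv, map_sub, pull_orbPull, ← pull_S_alphaP φ]
    abel
  have hU : kap φ (ModularGroup.S * ModularGroup.T)
      = pull (ModularGroup.S * ModularGroup.T) v - v := by
    rw [hv', map_add, pull_orbPull, ← pull_U_betaP φ]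
    abel
  let H : Subgroup SL(2, ℤ) :=
    { carrier := {g | kap φ g = pull g v - v}
      one_mem' := by
        show kap φ 1 = pull 1 v - v
        rw [kap_one, pull_one, sub_self]
      mul_mem' := by
        intro a b ha hb
        show kap φ (a * b) = pull (a * b) v - v
        rw [kap_mul, show kap φ a = pull a v - v from ha, show kap φ b = pull b v - v from hb,
          pull_mul, map_sub]
        abel
      inv_mem' := by
        intro a ha
        show kap φ a⁻¹ = pull a⁻¹ v - v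
        have h1 := kap_mul φ a a⁻¹
        rw [mul_inv_cancel, kap_one, show kap φ a = pull a v - v from ha, map_sub,
          ← pull_mul, mul_inv_cancel, pull_one] at h1
        have h2 : kap φ a⁻¹ = -(v - pull a⁻¹ v) := eq_neg_of_add_eq_zero_right h1.symm
        rw [h2]
        abel }
  have hSH : ModularGroup.S ∈ H := hS
  have hUH : ModularGroup.S * ModularGroup.T ∈ H := hU
  have hTH : ModularGroup.T ∈ H := by
    have := H.mul_mem (H.inv_mem hSH) hUH
    rwa [inv_mul_cancel_left] at this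
  have hle : Subgroup.closure {ModularGroup.S, ModularGroup.T} ≤ H := by
    rw [Subgroup.closure_le]
    intro x hx
    rcases hx with rfl | hx
    · exact hSH
    · rw [Set.mem_singleton_iff] at hx
      subst hx
      exact hTH
  rw [SpecialLinearGroup.SL2Z_generators] at hle
  refine AddMonoidHom.ext fun γ' => ?_
  obtain ⟨γ, rfl⟩ : ∃ γ : Gamma0 N, Additive.ofMul γ = γ' := ⟨Additive.toMul γ', rfl⟩
  have hγ : (γ : SL(2, ℤ)) ∈ H := hle (Subgroup.mem_top _)
  have hk : kap φ (γ : SL(2, ℤ)) = pull (γ : SL(2, ℤ)) v - v := hγ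
  have hb := kap_base φ γ
  rw [hk] at hb
  have hx : ((γ : SL(2, ℤ)) • (((1 : SL(2, ℤ)) : XN N))) = (((1 : SL(2, ℤ)) : XN N)) := by
    show (((γ : SL(2, ℤ)) * 1 : SL(2, ℤ)) : XN N) = _
    rw [QuotientGroup.eq]
    simp
  rw [Pi.sub_apply, pull_apply, hx, sub_self] at hb
  rw [← hb]
  rfl

theorem theta_injective [NeZero N] : Function.Injective (theta N) := by
  rw [← LinearMap.ker_eq_bot, eq_bot_iff]
  intro φ hφ
  rw [LinearMap.mem_ker] at hφ
  have : φ = 0 := eq_zero_of_theta_mem φ (by rw [hφ]; exact Submodule.zero_mem _)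
  rw [this]
  exact Submodule.zero_mem _

/-- The space of parabolic homomorphisms is finite-dimensional. -/
theorem finiteDimensional_parabolicHoms (N : ℕ) [NeZero N] :
    FiniteDimensional ℂ (parabolicHoms ℂ (Gamma0 N) ℂ) := by
  have h : Function.Injective ((theta N).domRestrict (parabolicHoms ℂ (Gamma0 N) ℂ)) := by
    intro a b hab
    exact Subtype.ext (theta_injective hab)
  exact FiniteDimensional.of_injective _ h

/-- The combinatorial bound for the dimension of the space of parabolic homomorphisms. -/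
theorem finrank_parabolicHoms_add (N : ℕ) [NeZero N] :
    finrank ℂ (parabolicHoms ℂ (Gamma0 N) ℂ)
      + Nat.card (Orb (XN N) ModularGroup.S)
      + Nat.card (Orb (XN N) (ModularGroup.S * ModularGroup.T))
      + Nat.card (Orb (XN N) ModularGroup.T) ≤ Nat.card (XN N) + 2 := by
  have h := cell_bound (X := XN N) ModularGroup.S ModularGroup.T
    SpecialLinearGroup.SL2Z_generators
    (Submodule.map (theta N) (parabolicHoms ℂ (Gamma0 N) ℂ))
    (by
      rintro _ ⟨φ, _, rfl⟩ he
      rw [eq_zero_of_theta_mem φ he, map_zero])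
    (by
      rintro _ ⟨φ, hφ, rfl⟩
      exact d2_theta φ hφ)
  have h1 : finrank ℂ (Submodule.map (theta N) (parabolicHoms ℂ (Gamma0 N) ℂ))
      = finrank ℂ (parabolicHoms ℂ (Gamma0 N) ℂ) :=
    (LinearEquiv.finrank_eq (Submodule.equivMapOfInjective (theta N) theta_injective
      (parabolicHoms ℂ (Gamma0 N) ℂ))).symm
  rw [h1] at h
  exact h

end Fermat.Agent.S21
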