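import Mathlib
import Fermat.Prelude.Def_ModularCurve_PeriodMap
import Fermat.Prelude.Def_ModularCurve_GenusNumerics
import Fermat.Agent.S21.Shapiro
import Fermat.Agent.Lib.Gamma0Count.Ree
import Fermat.Agent.Lib.Gamma0Count.Fixed
import Fermat.Agent.Lib.Gamma0Count.CuspCount
import Fermat.Agent.Lib.Gamma0Count.PrimCount

/-!
# S21, piece E5: `dim parabolicHoms(Γ₀(N)) ≤ 2 g`
-/

set_option autoImplicit false

open Module CongruenceSubgroup ModularCurve.Period
open scoped MatrixGroups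

namespace Fermat.Agent.S21

/-- **E5.** The space of parabolic homomorphisms `Γ₀(N) → ℂ` has dimension at most `2 g`. -/
theorem finrank_parabolicHoms_le (N : ℕ) [NeZero N] :
    (finrank ℂ (parabolicHoms ℂ (Gamma0 N) ℂ) : ℚ) ≤ 2 * ModularCurve.genusFormula N := by
  have h := finrank_parabolicHoms_add N
  have hS := Fermat.Agent.Lib.Gamma0Count.two_mul_card_orbits_S N
  have hU := Fermat.Agent.Lib.Gamma0Count.three_mul_card_orbits_ST N
  have hT := Fermat.Agent.Lib.Gamma0Count.card_orbits_T N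
  have hn := Fermat.Agent.Lib.Gamma0Count.card_quotient N
  rw [Fermat.Agent.Lib.Gamma0Count.card_fixedBy_S] at hS
  rw [Fermat.Agent.Lib.Gamma0Count.card_fixedBy_ST] at hU
  rw [hn] at hS hU
  have h' : finrank ℂ (parabolicHoms ℂ (Gamma0 N) ℂ)
      + Nat.card (MulAction.orbitRel.Quotient (Subgroup.zpowers ModularGroup.S)
          (SL(2, ℤ) ⧸ Gamma0 N))
      + Nat.card (MulAction.orbitRel.Quotient (Subgroup.zpowers (ModularGroup.S * ModularGroup.T))
          (SL(2, ℤ) ⧸ Gamma0 N))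
      + Nat.card (MulAction.orbitRel.Quotient (Subgroup.zpowers ModularGroup.T)
          (SL(2, ℤ) ⧸ Gamma0 N)) ≤ Nat.card (SL(2, ℤ) ⧸ Gamma0 N) + 2 := h
  rw [hT, hn] at h'
  set f := finrank ℂ (parabolicHoms ℂ (Gamma0 N) ℂ)
  set cS := Nat.card (MulAction.orbitRel.Quotient (Subgroup.zpowers ModularGroup.S)
          (SL(2, ℤ) ⧸ Gamma0 N))
  set cU := Nat.card (MulAction.orbitRel.Quotient
          (Subgroup.zpowers (ModularGroup.S * ModularGroup.T)) (SL(2, ℤ) ⧸ Gamma0 N))
  have h1 : (f : ℚ) + cS + cU + ModularCurve.cuspCount N ≤ ModularCurve.dedekindPsi N + 2 := by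
    exact_mod_cast h'
  have h2 : (2 : ℚ) * cS = ModularCurve.dedekindPsi N + ModularCurve.nuTwo N := by
    exact_mod_cast hS
  have h3 : (3 : ℚ) * cU = ModularCurve.dedekindPsi N + 2 * ModularCurve.nuThree N := by
    exact_mod_cast hU
  rw [ModularCurve.genusFormula]
  linarith

end Fermat.Agent.S21
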