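import Mathlib
import Fermat.Agent.S21.Shapiro
import Fermat.Agent.S22.SepPrim

/-!
# S21, piece E4 (core): a maximum principle on `Γ₀(N) \ ℍ`

A holomorphic function `H` on the upper half-plane whose real part is `Γ₀(N)`-invariant, which is
`N`-periodic at every cusp and has a limit at every cusp, is constant.
-/

set_option autoImplicit false

open UpperHalfPlane Filter Topology CongruenceSubgroup Function
open scoped MatrixGroups Manifold Real

noncomputable section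

namespace Fermat.Agent.S21

/-- The hypotheses of the maximum principle. -/
structure ReInv (N : ℕ) (H : ℍ → ℂ) : Prop where
  holo : MDiff H
  inv : ∀ γ ∈ Gamma0 N, ∀ z : ℍ, (H (γ • z)).re = (H z).re
  per : ∀ (δ : SL(2, ℤ)) (z : ℍ), H (δ • ((N : ℝ) +ᵥ z)) = H (δ • z)
  lim : ∀ δ : SL(2, ℤ), ∃ L : ℂ, Tendsto (fun w : ℍ => H (δ • w)) atImInfty (𝓝 L)

variable {N : ℕ} {H : ℍ → ℂ}

/-- The function `w ↦ exp (H (δ w))`. -/
def uFun (H : ℍ → ℂ) (δ : SL(2, ℤ)) : ℍ → ℂ := fun w => Complex.exp (H (δ • w))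

theorem norm_uFun (H : ℍ → ℂ) (δ : SL(2, ℤ)) (w : ℍ) :
    ‖uFun H δ w‖ = Real.exp (H (δ • w)).re := by
  rw [uFun, Complex.norm_exp]

theorem mdiff_comp_smul (hH : MDiff H) (δ : SL(2, ℤ)) : MDiff (fun w : ℍ => H (δ • w)) := by
  have h1 : MDiff (fun τ : ℍ => (Matrix.SpecialLinearGroup.mapGL ℝ δ : GL (Fin 2) ℝ) • τ) :=
    UpperHalfPlane.mdifferentiable_smul (by
      simp)
  exact hH.comp h1

theorem ReInv.uFun_mdiff (h : ReInv N H) (δ : SL(2, ℤ)) : MDiff (uFun H δ) := by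
  have h1 := mdiff_comp_smul h.holo δ
  rw [UpperHalfPlane.mdifferentiable_iff] at h1 ⊢
  exact h1.cexp

theorem ReInv.uFun_periodic (h : ReInv N H) (δ : SL(2, ℤ)) :
    Periodic (uFun H δ ∘ ofComplex) (N : ℝ) := by
  intro w
  by_cases hw : 0 < w.im
  · have hw' : 0 < (w + (N : ℝ)).im := by simpa using hw
    simp only [comp_apply, ofComplex_apply_of_im_pos hw', ofComplex_apply_of_im_pos hw, uFun]
    have : (⟨w + (N : ℝ), hw'⟩ : ℍ) = (N : ℝ) +ᵥ (⟨w, hw⟩ : ℍ) := by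
      ext
      simp [add_comm]
    rw [this, h.per]
  · have hw1 : w.im ≤ 0 := not_lt.mp hw
    have hw' : (w + (N : ℝ)).im ≤ 0 := by simpa using hw1
    simp only [comp_apply]
    rw [ofComplex_apply_of_im_nonpos hw', ofComplex_apply_of_im_nonpos hw1]

theorem ReInv.uFun_bdd (h : ReInv N H) (δ : SL(2, ℤ)) : IsBoundedAtImInfty (uFun H δ) := by
  obtain ⟨L, hL⟩ := h.lim δ
  have h1 : Tendsto (uFun H δ) atImInfty (𝓝 (Complex.exp L)) :=
    (Complex.continuous_exp.tendsto L).comp hL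
  exact h1.isBigO_one ℝ

/-- The function `exp ∘ H ∘ δ` in the local parameter at the cusp. -/
def eFun (N : ℕ) (H : ℍ → ℂ) (δ : SL(2, ℤ)) : ℂ → ℂ :=
  UpperHalfPlane.cuspFunction (N : ℝ) (uFun H δ)

theorem ReInv.eFun_diff [NeZero N] (h : ReInv N H) (δ : SL(2, ℤ)) :
    DifferentiableOn ℂ (eFun N H δ) (Metric.ball 0 1) :=
  UpperHalfPlane.differentiableOn_cuspFunction_ball
    (Nat.cast_pos.mpr (Nat.pos_of_ne_zero (NeZero.ne N))) (h.uFun_periodic δ) (h.uFun_mdiff δ)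
    (h.uFun_bdd δ)

theorem ReInv.eFun_qParam [NeZero N] (h : ReInv N H) (δ : SL(2, ℤ)) (τ : ℍ) :
    eFun N H δ (Periodic.qParam (N : ℝ) τ) = uFun H δ τ :=
  UpperHalfPlane.eq_cuspFunction τ (Nat.cast_ne_zero.mpr (NeZero.ne N)) (h.uFun_periodic δ)

/-- The radius of the closed disc containing the images of the points with `im ≥ 1/2`. -/
def rad (N : ℕ) : ℝ := Real.exp (-π / N)

theorem rad_pos (N : ℕ) : 0 < rad N := Real.exp_pos _

theorem rad_lt_one (N : ℕ) [NeZero N] : rad N < 1 := by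
  rw [rad, Real.exp_lt_one_iff]
  have hN : (0 : ℝ) < N := Nat.cast_pos.mpr (Nat.pos_of_ne_zero (NeZero.ne N))
  exact div_neg_of_neg_of_pos (neg_lt_zero.mpr Real.pi_pos) hN

theorem norm_qParam_le_rad (N : ℕ) [NeZero N] {ξ : ℍ} (hξ : 1 / 2 ≤ ξ.im) :
    ‖Periodic.qParam (N : ℝ) ξ‖ ≤ rad N := by
  rw [Periodic.norm_qParam, rad, Real.exp_le_exp]
  have hN : (0 : ℝ) < N := Nat.cast_pos.mpr (Nat.pos_of_ne_zero (NeZero.ne N))
  rw [div_le_div_iff_of_pos_right hN]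
  have : (1 : ℝ) / 2 ≤ (ξ : ℂ).im := hξ
  nlinarith [Real.pi_pos]

/-- Moving a point into the region `im ≥ 1/2` permutes the cusps. -/
theorem ReInv.exists_far (h : ReInv N H) (x : XN N) (z : ℍ) :
    ∃ (x' : XN N) (ξ : ℍ), 1 / 2 ≤ ξ.im ∧
      ‖uFun H (rep N x)⁻¹ z‖ = ‖uFun H (rep N x')⁻¹ ξ‖ := by
  obtain ⟨g, hg⟩ := ModularGroup.exists_one_half_le_im_smul z
  refine ⟨g • x, g • z, hg, ?_⟩
  rw [norm_uFun, norm_uFun]
  congr 1
  have hmem := rep_mem (N := N) g x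
  have h1 : (rep N (g • x))⁻¹ • (g • z)
      = ((rep N (g • x))⁻¹ * g * rep N x) • ((rep N x)⁻¹ • z) := by
    rw [← mul_smul, ← mul_smul]
    congr 1
    group
  rw [h1, h.inv _ hmem]

attribute [local instance] fintypeXN

/-- The maximum of all the functions `eFun` on the closed disc of radius `rad N` is attained. -/
theorem ReInv.exists_max [NeZero N] (h : ReInv N H) :
    ∃ (x₀ : XN N) (q₀ : ℂ), q₀ ∈ Metric.closedBall (0 : ℂ) (rad N) ∧
      ∀ (x : XN N) (q : ℂ), q ∈ Metric.closedBall (0 : ℂ) (rad N) →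
        ‖eFun N H (rep N x)⁻¹ q‖ ≤ ‖eFun N H (rep N x₀)⁻¹ q₀‖ := by
  have hx : ∀ x : XN N, ∃ q ∈ Metric.closedBall (0 : ℂ) (rad N),
      IsMaxOn (fun q => ‖eFun N H (rep N x)⁻¹ q‖) (Metric.closedBall 0 (rad N)) q := by
    intro x
    refine (isCompact_closedBall 0 (rad N)).exists_isMaxOn ⟨0, by simp [(rad_pos N).le]⟩ ?_
    refine ContinuousOn.norm ?_
    exact (h.eFun_diff _).continuousOn.mono (Metric.closedBall_subset_ball (rad_lt_one N))
  choose qx hqx hmax using hx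
  obtain ⟨x₀, -, hx₀⟩ := Finset.exists_max_image Finset.univ
    (fun x => ‖eFun N H (rep N x)⁻¹ (qx x)‖) ⟨((1 : SL(2, ℤ)) : XN N), Finset.mem_univ _⟩
  refine ⟨x₀, qx x₀, hqx x₀, fun x q hq => ?_⟩
  exact (hmax x hq).trans (hx₀ x (Finset.mem_univ _))

theorem ReInv.eFun_le [NeZero N] (h : ReInv N H) {x₀ : XN N} {q₀ : ℂ}
    (hmax : ∀ (x : XN N) (q : ℂ), q ∈ Metric.closedBall (0 : ℂ) (rad N) →
        ‖eFun N H (rep N x)⁻¹ q‖ ≤ ‖eFun N H (rep N x₀)⁻¹ q₀‖)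
    (x : XN N) (q : ℂ) (hq : q ∈ Metric.ball (0 : ℂ) 1) :
    ‖eFun N H (rep N x)⁻¹ q‖ ≤ ‖eFun N H (rep N x₀)⁻¹ q₀‖ := by
  have hN : (0 : ℝ) < N := Nat.cast_pos.mpr (Nat.pos_of_ne_zero (NeZero.ne N))
  rcases eq_or_ne q 0 with rfl | hq0
  · exact hmax x 0 (by simp [(rad_pos N).le])
  · have hq1 : ‖q‖ < 1 := by simpa using hq
    set τ : ℍ := ⟨Periodic.invQParam N q, Periodic.im_invQParam_pos_of_norm_lt_one hN hq1 hq0⟩
      with hτdef
    have hτ : Periodic.qParam (N : ℝ) τ = q := Periodic.qParam_right_inv hN.ne' hq0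
    rw [← hτ, h.eFun_qParam]
    obtain ⟨x', ξ, hξ, he⟩ := h.exists_far x τ
    rw [he, ← h.eFun_qParam]
    exact hmax x' _ (by simpa using norm_qParam_le_rad N hξ)

/-- One of the functions `exp ∘ H ∘ δ` is constant. -/
theorem ReInv.uFun_const [NeZero N] (h : ReInv N H) :
    ∃ (δ : SL(2, ℤ)) (c : ℂ), ∀ τ : ℍ, uFun H δ τ = c := by
  have hN : (0 : ℝ) < N := Nat.cast_pos.mpr (Nat.pos_of_ne_zero (NeZero.ne N))
  obtain ⟨x₀, q₀, hq₀, hmax⟩ := h.exists_max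
  have hq₀' : q₀ ∈ Metric.ball (0 : ℂ) 1 := Metric.closedBall_subset_ball (rad_lt_one N) hq₀
  have hc := Complex.eqOn_of_isPreconnected_of_isMaxOn_norm (convex_ball (0 : ℂ) 1).isPreconnected
    Metric.isOpen_ball (h.eFun_diff (rep N x₀)⁻¹) hq₀'
    (fun q hq => h.eFun_le hmax x₀ q hq)
  refine ⟨(rep N x₀)⁻¹, eFun N H (rep N x₀)⁻¹ q₀, fun τ => ?_⟩
  rw [← h.eFun_qParam]
  exact hc (by simpa using Periodic.norm_qParam_lt_one hN τ.2)

/-- **The maximum principle.** -/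
theorem ReInv.const [NeZero N] (h : ReInv N H) (z w : ℍ) : H z = H w := by
  obtain ⟨δ, c, hc⟩ := h.uFun_const
  have hexp : ∀ τ : ℍ, Complex.exp (H τ) = c := by
    intro τ
    have := hc (δ⁻¹ • τ)
    rwa [uFun, smul_inv_smul] at this
  set G : ℂ → ℂ := H ∘ ofComplex with hG
  have hdiff : ∀ z : ℂ, 0 < z.im → DifferentiableAt ℂ G z := fun z hz =>
    (UpperHalfPlane.mdifferentiable_iff.mp h.holo z hz).differentiableAt
      (isOpen_upperHalfPlaneSet.mem_nhds hz)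
  have hder : ∀ z : ℂ, 0 < z.im → HasDerivAt G 0 z := by
    intro z hz
    have h1 : HasDerivAt G (deriv G z) z := (hdiff z hz).hasDerivAt
    have h2 : HasDerivAt (fun y => Complex.exp (G y)) (Complex.exp (G z) * deriv G z) z :=
      h1.cexp
    have h3 : (fun y => Complex.exp (G y)) =ᶠ[𝓝 z] fun _ => c := by
      filter_upwards [isOpen_upperHalfPlaneSet.mem_nhds hz] with y hy
      have := hexp ⟨y, hy⟩
      rw [hG, comp_apply, ofComplex_apply_of_im_pos hy]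
      exact this
    have h4 : HasDerivAt (fun y => Complex.exp (G y)) 0 z :=
      (hasDerivAt_const z c).congr_of_eventuallyEq h3
    have h5 := h2.unique h4
    rcases mul_eq_zero.mp h5 with h6 | h6
    · exact absurd h6 (Complex.exp_ne_zero _)
    · rw [h6] at h1
      exact h1
  have := Fermat.Agent.S22.Sep.eq_of_hasDerivAt_zero hder z.2 w.2
  simpa [hG] using this

end Fermat.Agent.S21
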