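import Mathlib
import Fermat.Agent.S21.PeriodMap
import Fermat.Agent.S21.MaxPrinciple

/-!
# S21, piece E3/E4: the period pairing is injective
-/

set_option autoImplicit false

open UpperHalfPlane Filter Topology CongruenceSubgroup ModularCurve ModularCurve.Period
open scoped MatrixGroups Manifold ComplexConjugate ModularForm

noncomputable section

namespace Fermat.Agent.S21

variable {N : ℕ} [NeZero N]

theorem mdiff_primH (f : CuspForm (Gamma0 N) 2) : MDiff (primH f) := by
  rw [UpperHalfPlane.mdifferentiable_iff]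
  intro z hz
  exact ((hasEquivariantPrimitive_primH f).1 ⟨z, hz⟩).differentiableAt.differentiableWithinAt

theorem primH_smul_of_mem (f : CuspForm (Gamma0 N) 2) {γ : SL(2, ℤ)} (hγ : γ ∈ Gamma0 N)
    (z : ℍ) : primH f (γ • z) = primH f z + cuspv f γ := by
  rw [primH_smul, Fermat.Agent.S21.primN_mob_of_mem f hγ z.im_pos]
  rfl

theorem primH_per (f : CuspForm (Gamma0 N) 2) (δ : SL(2, ℤ)) (k : ℤ) (z : ℍ) :
    primH f (δ • (((N : ℝ) * k) +ᵥ z)) = primH f (δ • z) := by
  rw [primH_smul, primH_smul]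
  have := primN_mob_add_level f δ k z.im_pos
  rw [← this]
  congr 2
  rw [UpperHalfPlane.coe_vadd]
  push_cast
  ring

theorem tendsto_primH (f : CuspForm (Gamma0 N) 2) (δ : SL(2, ℤ)) :
    Tendsto (fun w : ℍ => primH f (δ • w)) atImInfty (𝓝 (cuspv f δ)) :=
  (tendsto_primN_mob f δ).congr (fun w => (primH_smul f δ w).symm)

/-- The reflection `z ↦ -conj z`. -/
def refl (z : ℍ) : ℍ := J • z

theorem coe_refl (z : ℍ) : ((refl z : ℍ) : ℂ) = -conj (z : ℂ) := coe_J_smul z

theorem im_refl (z : ℍ) : (refl z).im = z.im := by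
  rw [UpperHalfPlane.im, coe_refl]
  simp

theorem refl_refl (z : ℍ) : refl (refl z) = z := by
  ext
  simp [coe_refl]

theorem refl_vadd (x : ℝ) (z : ℍ) : refl (x +ᵥ z) = (-x) +ᵥ refl z := by
  ext
  simp only [coe_refl, UpperHalfPlane.coe_vadd, map_add, Complex.conj_ofReal]
  push_cast
  ring

theorem refl_smul (γ : SL(2, ℤ)) (z : ℍ) : refl (γ • z) = (jConjSL γ) • refl z := by
  ext
  rw [coe_refl, UpperHalfPlane.coe_specialLinearGroup_apply,
    UpperHalfPlane.coe_specialLinearGroup_apply, coe_refl]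
  simp only [jConjSL_coe, jConjMat_apply_zero_zero, jConjMat_apply_zero_one,
    jConjMat_apply_one_zero, jConjMat_apply_one_one, map_div₀, map_add, map_mul]
  simp only [Complex.conj_ofReal]
  rw [neg_div']
  congr 1
  · push_cast
    ring
  · push_cast
    ring

theorem tendsto_refl : Tendsto refl atImInfty atImInfty := by
  rw [atImInfty, tendsto_comap_iff]
  have : UpperHalfPlane.im ∘ refl = UpperHalfPlane.im := funext im_refl
  rw [this]
  exact tendsto_comap

/-- The reflected conjugate of a function on the upper half-plane. -/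
def conjRefl (F : ℍ → ℂ) : ℍ → ℂ := fun z => conj (F (refl z))

theorem mdiff_conjRefl {F : ℍ → ℂ} (hF : MDiff F) : MDiff (conjRefl F) := by
  have h := MDifferentiable.slash hF 0 J
  have h2 : (F ∣[(0 : ℤ)] J) = conjRefl F := by
    funext z
    simp only [ModularForm.slash_def, conjRefl, refl, σ, det_J]
    have h3 : ¬ (0 : ℝ) < ((-1 : ℝˣ) : ℝ) := by simp
    rw [if_neg h3]
    simp
  rw [h2] at h
  exact h

theorem conjRefl_primH_smul_of_mem (D : CuspForm (Gamma0 N) 2) {γ : SL(2, ℤ)}
    (hγ : γ ∈ Gamma0 N) (z : ℍ) :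
    conjRefl (primH D) (γ • z) = conjRefl (primH D) z + conj (cuspv D (jConjSL γ)) := by
  rw [conjRefl, conjRefl, refl_smul, primH_smul_of_mem D (jConjSL_mem_Gamma0 hγ), map_add]

theorem primH_per_one (f : CuspForm (Gamma0 N) 2) (δ : SL(2, ℤ)) (z : ℍ) :
    primH f (δ • ((N : ℝ) +ᵥ z)) = primH f (δ • z) := by
  have := primH_per f δ 1 z
  simpa using this

theorem primH_per_neg_one (f : CuspForm (Gamma0 N) 2) (δ : SL(2, ℤ)) (z : ℍ) :
    primH f (δ • ((-(N : ℝ)) +ᵥ z)) = primH f (δ • z) := by
  have := primH_per f δ (-1) z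
  simpa using this

theorem conjRefl_primH_per (D : CuspForm (Gamma0 N) 2) (δ : SL(2, ℤ)) (z : ℍ) :
    conjRefl (primH D) (δ • ((N : ℝ) +ᵥ z)) = conjRefl (primH D) (δ • z) := by
  rw [conjRefl, conjRefl, refl_smul, refl_smul, refl_vadd, primH_per_neg_one]

theorem tendsto_conjRefl_primH (D : CuspForm (Gamma0 N) 2) (δ : SL(2, ℤ)) :
    Tendsto (fun w : ℍ => conjRefl (primH D) (δ • w)) atImInfty
      (𝓝 (conj (cuspv D (jConjSL δ)))) := by
  have h1 := (tendsto_primH D (jConjSL δ)).comp tendsto_refl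
  have h2 := (Complex.continuous_conj.tendsto _).comp h1
  refine h2.congr (fun w => ?_)
  simp only [Function.comp_apply, conjRefl, refl_smul]

theorem reInv_add (A D : CuspForm (Gamma0 N) 2)
    (h : ∀ γ ∈ Gamma0 N, cuspv A γ + cuspv D (jConjSL γ) = 0) :
    ReInv N (fun z => primH A z + conjRefl (primH D) z) where
  holo := (mdiff_primH A).add (mdiff_conjRefl (mdiff_primH D))
  inv γ hγ z := by
    rw [primH_smul_of_mem A hγ, conjRefl_primH_smul_of_mem D hγ]
    have h1 : cuspv D (jConjSL γ) = -cuspv A γ := eq_neg_of_add_eq_zero_right (h γ hγ)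
    rw [h1]
    simp only [Complex.add_re, map_neg, Complex.neg_re, Complex.conj_re]
    ring
  per δ z := by
    rw [primH_per_one, conjRefl_primH_per]
  lim δ := ⟨_, (tendsto_primH A δ).add (tendsto_conjRefl_primH D δ)⟩

theorem reInv_sub (A D : CuspForm (Gamma0 N) 2)
    (h : ∀ γ ∈ Gamma0 N, cuspv A γ + cuspv D (jConjSL γ) = 0) :
    ReInv N (fun z => Complex.I * (primH A z - conjRefl (primH D) z)) where
  holo := mdifferentiable_const.mul ((mdiff_primH A).sub (mdiff_conjRefl (mdiff_primH D)))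
  inv γ hγ z := by
    rw [primH_smul_of_mem A hγ, conjRefl_primH_smul_of_mem D hγ]
    have h1 : cuspv D (jConjSL γ) = -cuspv A γ := eq_neg_of_add_eq_zero_right (h γ hγ)
    rw [h1]
    simp only [Complex.mul_re, Complex.I_re, Complex.I_im, Complex.sub_re, Complex.sub_im,
      Complex.add_re, Complex.add_im, map_neg, Complex.neg_re, Complex.neg_im, Complex.conj_re,
      Complex.conj_im]
    ring
  per δ z := by
    rw [primH_per_one, conjRefl_primH_per]
  lim δ := ⟨_, ((tendsto_primH A δ).sub (tendsto_conjRefl_primH D δ)).const_mul Complex.I⟩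

theorem eq_zero_of_primH_const (f : CuspForm (Gamma0 N) 2)
    (h : ∀ z w : ℍ, primH f z = primH f w) : f = 0 := by
  ext τ
  have h1 := (hasEquivariantPrimitive_primH f).1 τ
  have h2 : (primH f ∘ ofComplex) =ᶠ[𝓝 (τ : ℂ)] fun _ => primH f τ := by
    filter_upwards [isOpen_upperHalfPlaneSet.mem_nhds τ.im_pos] with y _
    exact h _ _
  have h3 := (hasDerivAt_const (τ : ℂ) (primH f τ)).congr_of_eventuallyEq h2
  exact h1.unique h3

/-- The core of the injectivity. -/
theorem eq_zero_of_cuspv (A D : CuspForm (Gamma0 N) 2)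
    (h : ∀ γ ∈ Gamma0 N, cuspv A γ + cuspv D (jConjSL γ) = 0) : A = 0 ∧ D = 0 := by
  have h1 := (reInv_add A D h).const
  have h2 := (reInv_sub A D h).const
  have hA : ∀ z w, primH A z = primH A w := by
    intro z w
    have e1 := h1 z w
    have e2 := h2 z w
    have e3 : primH A z - conjRefl (primH D) z = primH A w - conjRefl (primH D) w :=
      mul_left_cancel₀ Complex.I_ne_zero e2
    linear_combination (1 / 2 : ℂ) * e1 + (1 / 2 : ℂ) * e3
  have hD' : ∀ z w, conjRefl (primH D) z = conjRefl (primH D) w := by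
    intro z w
    have e1 := h1 z w
    have e2 := h2 z w
    have e3 : primH A z - conjRefl (primH D) z = primH A w - conjRefl (primH D) w :=
      mul_left_cancel₀ Complex.I_ne_zero e2
    linear_combination (1 / 2 : ℂ) * e1 - (1 / 2 : ℂ) * e3
  have hD : ∀ z w, primH D z = primH D w := by
    intro z w
    have := hD' (refl z) (refl w)
    simp only [conjRefl, refl_refl] at this
    exact (starRingEnd ℂ).injective this
  exact ⟨eq_zero_of_primH_const A hA, eq_zero_of_primH_const D hD⟩

theorem cuspv_sub (f g : CuspForm (Gamma0 N) 2) (γ : SL(2, ℤ)) :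
    cuspv (f - g) γ = cuspv f γ - cuspv g γ := by
  have : f - g = f + (-1 : ℂ) • g := by
    rw [neg_one_smul, sub_eq_add_neg]
  rw [this, cuspv_add, cuspv_smul]
  ring

/-- **E3/E4.** The period pairing is injective. -/
theorem periodHomPair_injective (N : ℕ) [NeZero N] : Function.Injective (periodHomPair N) := by
  obtain ⟨pml, hpml, hdef⟩ := periodHomPair_def N (existsPeriodMapLinear N)
  rw [← LinearMap.ker_eq_bot, eq_bot_iff]
  rintro ⟨f, g⟩ hfg
  rw [LinearMap.mem_ker, hdef] at hfg
  have key : ∀ γ ∈ Gamma0 N, cuspv (f + g) γ + cuspv (f - g) (jConjSL γ) = 0 := by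
    intro γ hγ
    have h1 := congrArg (fun ψ : Additive (Gamma0 N) →+ ℂ => ψ (Additive.ofMul ⟨γ, hγ⟩)) hfg
    simp only [LinearMap.coprod_apply, LinearMap.comp_apply, LinearMap.add_apply,
      LinearMap.sub_apply, LinearMap.id_apply, AddMonoidHom.add_apply, AddMonoidHom.sub_apply,
      charInvolution_apply, hpml, AddMonoidHom.zero_apply, toMul_ofMul] at h1
    rw [periodMap_apply, periodMap_apply, periodMap_apply, periodMap_apply] at h1
    rw [cuspv_add, cuspv_sub]
    have h2 : ((jConjGamma0 N ⟨γ, hγ⟩ : Gamma0 N) : SL(2, ℤ)) = jConjSL γ := rfl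
    rw [h2] at h1
    simp only at h1
    linear_combination h1
  obtain ⟨h1, h2⟩ := eq_zero_of_cuspv (f + g) (f - g) key
  have hf : f = 0 := by
    have h3 : (2 : ℂ) • f = 0 := by
      have : (2 : ℂ) • f = (f + g) + (f - g) := by
        rw [two_smul]; abel
      rw [this, h1, h2, add_zero]
    rcases smul_eq_zero.mp h3 with h4 | h4
    · exact absurd h4 two_ne_zero
    · exact h4
  have hg : g = 0 := by
    rw [hf, zero_add] at h1
    exact h1
  rw [hf, hg]
  exact Submodule.zero_mem _

end Fermat.Agent.S21
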