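import Mathlib
import Fermat.Agent.S21.Injective
import Fermat.Agent.S21.DimBound

/-!
# S21 ⇒ S20 (upper bound): `dim S₂(Γ₀(N)) ≤ g`

Given that the periods of cusp forms are parabolic (piece E2), the injectivity of the period
pairing (E3) and the dimension bound for parabolic homomorphisms (E5) give
`dim S₂(Γ₀(N)) ≤ genusFormula N`, and the equality of the range with the parabolic homomorphisms
as soon as `dim S₂(Γ₀(N)) = genusFormula N`.
-/

set_option autoImplicit false

open Module CongruenceSubgroup ModularCurve ModularCurve.Period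
open scoped MatrixGroups

namespace Fermat.Agent.S21

variable (N : ℕ) [NeZero N]

/-- The range of the period pairing consists of parabolic homomorphisms, given E2. -/
theorem range_periodHomPair_le
    (hpar : ∀ f : CuspForm (Gamma0 N) 2, periodMap N f ∈ parabolicHoms ℂ (Gamma0 N) ℂ) :
    LinearMap.range (periodHomPair N) ≤ parabolicHoms ℂ (Gamma0 N) ℂ := by
  obtain ⟨pml, hpml, hdef⟩ := periodHomPair_def N (existsPeriodMapLinear N)
  rintro _ ⟨⟨f, g⟩, rfl⟩
  rw [hdef]
  simp only [LinearMap.coprod_apply, LinearMap.comp_apply, LinearMap.add_apply,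
    LinearMap.sub_apply, LinearMap.id_apply, hpml]
  exact Submodule.add_mem _
    (Submodule.add_mem _ (hpar f) (charInvolution_mem_parabolicHoms N ℂ ℂ (hpar f)))
    (Submodule.sub_mem _ (hpar g) (charInvolution_mem_parabolicHoms N ℂ ℂ (hpar g)))

/-- The space of cusp forms of weight `2` is finite-dimensional (from the period pairing). -/
theorem finiteDimensional_cuspForm
    (hpar : ∀ f : CuspForm (Gamma0 N) 2, periodMap N f ∈ parabolicHoms ℂ (Gamma0 N) ℂ) :
    FiniteDimensional ℂ (CuspForm (Gamma0 N) 2) := by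
  have := finiteDimensional_parabolicHoms N
  let Φ : CuspForm (Gamma0 N) 2 →ₗ[ℂ] parabolicHoms ℂ (Gamma0 N) ℂ :=
    LinearMap.codRestrict _ ((periodHomPair N).comp (LinearMap.inl ℂ _ _))
      (fun f => range_periodHomPair_le N hpar ⟨(f, 0), rfl⟩)
  have hΦ : Function.Injective Φ := by
    intro a b hab
    have h1 : periodHomPair N (a, 0) = periodHomPair N (b, 0) := congrArg Subtype.val hab
    have h2 := periodHomPair_injective N h1
    exact (Prod.ext_iff.mp h2).1
  exact FiniteDimensional.of_injective Φ hΦ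

/-- `2 dim S₂ = dim range (periodHomPair)`. -/
theorem finrank_range_periodHomPair
    (hpar : ∀ f : CuspForm (Gamma0 N) 2, periodMap N f ∈ parabolicHoms ℂ (Gamma0 N) ℂ) :
    finrank ℂ (LinearMap.range (periodHomPair N))
      = 2 * finrank ℂ (CuspForm (Gamma0 N) 2) := by
  have := finiteDimensional_cuspForm N hpar
  rw [LinearMap.finrank_range_of_inj (periodHomPair_injective N), Module.finrank_prod, two_mul]

/-- **Upper bound for S20** (given E2): `dim S₂(Γ₀(N)) ≤ genusFormula N`. -/
theorem finrank_cuspForm_le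
    (hpar : ∀ f : CuspForm (Gamma0 N) 2, periodMap N f ∈ parabolicHoms ℂ (Gamma0 N) ℂ) :
    (finrank ℂ (CuspForm (Gamma0 N) 2) : ℚ) ≤ genusFormula N := by
  have := finiteDimensional_parabolicHoms N
  have h1 := Submodule.finrank_mono (range_periodHomPair_le N hpar)
  rw [finrank_range_periodHomPair N hpar] at h1
  have h2 := finrank_parabolicHoms_le N
  have h3 : ((2 * finrank ℂ (CuspForm (Gamma0 N) 2) : ℕ) : ℚ)
      ≤ (finrank ℂ (parabolicHoms ℂ (Gamma0 N) ℂ) : ℚ) := by exact_mod_cast h1
  push_cast at h3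
  linarith

/-- **Assembly of S21** given E2 and S20. -/
theorem eichlerShimura_of
    (hpar : ∀ f : CuspForm (Gamma0 N) 2, periodMap N f ∈ parabolicHoms ℂ (Gamma0 N) ℂ)
    (hdim : (finrank ℂ (CuspForm (Gamma0 N) 2) : ℚ) = genusFormula N) :
    Function.Injective (periodHomPair N)
      ∧ LinearMap.range (periodHomPair N) = parabolicHoms ℂ (Gamma0 N) ℂ := by
  refine ⟨periodHomPair_injective N, ?_⟩
  have := finiteDimensional_parabolicHoms N
  refine Submodule.eq_of_le_of_finrank_le (range_periodHomPair_le N hpar) ?_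
  rw [finrank_range_periodHomPair N hpar]
  have h2 := finrank_parabolicHoms_le N
  rw [← hdim] at h2
  have h3 : (finrank ℂ (parabolicHoms ℂ (Gamma0 N) ℂ) : ℚ)
      ≤ ((2 * finrank ℂ (CuspForm (Gamma0 N) 2) : ℕ) : ℚ) := by
    push_cast
    exact h2
  exact_mod_cast h3

end Fermat.Agent.S21
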