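import Mathlib
import Fermat.Agent.S21.UpperBound
import Fermat.Agent.S21.Parabolic

/-!
# S21: assembly (instantiating `UpperBound.lean` with E2)

* `finrank_cuspForm_two_le`: `dim S₂(Γ₀(N)) ≤ genusFormula N` (upper bound for S20).
* `finiteDimensional_cuspForm_wt2`: `S₂(Γ₀(N))` is finite-dimensional.
* `s21_of_s20`: S21 follows from S20.
-/

set_option autoImplicit false

open Module CongruenceSubgroup ModularCurve ModularCurve.Period
open scoped MatrixGroups

namespace Fermat.Agent.S21

theorem range_periodHomPair_le_parabolic (N : ℕ) [NeZero N] :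
    LinearMap.range (periodHomPair N) ≤ parabolicHoms ℂ (Gamma0 N) ℂ :=
  range_periodHomPair_le N periodMap_mem_parabolicHoms

theorem finiteDimensional_cuspForm_wt2 (N : ℕ) [NeZero N] :
    FiniteDimensional ℂ (CuspForm (Gamma0 N) 2) :=
  finiteDimensional_cuspForm N periodMap_mem_parabolicHoms

/-- **Upper bound for S20**: `dim S₂(Γ₀(N)) ≤ genusFormula N`. -/
theorem finrank_cuspForm_two_le (N : ℕ) [NeZero N] :
    (finrank ℂ (CuspForm (Gamma0 N) 2) : ℚ) ≤ ModularCurve.genusFormula N :=
  finrank_cuspForm_le N periodMap_mem_parabolicHoms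

/-- **S21 from S20.** -/
theorem s21_of_s20 (N : ℕ) [NeZero N]
    (h20 : (finrank ℂ (CuspForm (Gamma0 N) 2) : ℚ) = ModularCurve.genusFormula N) :
    Function.Injective (ModularCurve.periodHomPair N)
      ∧ LinearMap.range (ModularCurve.periodHomPair N)
          = ModularCurve.Period.parabolicHoms ℂ (CongruenceSubgroup.Gamma0 N) ℂ :=
  eichlerShimura_of N periodMap_mem_parabolicHoms h20

end Fermat.Agent.S21
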